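import Mathlib
import Fermat.Agent.H21.CocDefs

/-!
# HF-X3: the diagonal value of the `GL₂(ℝ)`-action (helper55, for S22)
-/

set_option autoImplicit false

namespace Fermat.Agent.H55

open UpperHalfPlane CongruenceSubgroup Matrix.SpecialLinearGroup
open scoped MatrixGroups ModularForm Manifold
open Fermat.Agent.H21

theorem act_diag (w : ℕ) (I : ℍ → ℂ → ℂ → ℂ) (hP : ∀ τ, I τ ∈ poly ℂ w)
    (g : GL (Fin 2) ℝ) (hg : 0 < g.det.val) (τ : ℍ) :
    act g I τ (τ : ℂ) 1 = denom g τ ^ w * I (g • τ) ((g • τ : ℍ) : ℂ) 1 := by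
  have hden : denom g τ ≠ 0 := denom_ne_zero g τ
  have hsmul : ((g • τ : ℍ) : ℂ) = num g τ / denom g τ :=
    UpperHalfPlane.coe_smul_of_det_pos hg τ
  have h1 : ((g 0 0 : ℝ) : ℂ) * (τ : ℂ) + ((g 0 1 : ℝ) : ℂ) * 1
      = denom g τ * ((g • τ : ℍ) : ℂ) := by
    rw [hsmul, mul_div_cancel₀ _ hden]
    simp [num]
  have h2 : ((g 1 0 : ℝ) : ℂ) * (τ : ℂ) + ((g 1 1 : ℝ) : ℂ) * 1 = denom g τ * 1 := by
    simp [denom]
  rw [act_apply, subst_apply, h1, h2]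
  exact poly_homogeneous (hP (g • τ)) _ _ _

end Fermat.Agent.H55
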