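import Fermat.Agent.H55.NodeChord
import Fermat.Agent.H71.Component
import Fermat.Agent.H70.AddSub

/-!
# The component law for points on a nodal model, any residue characteristic (helper55, S13 / WP5)

`W : y² + a₁ x y = x³ + a₂ x² + a₄ x` (`a₃ = a₆ = 0`) over a field `K` with a real valued additive
valuation `v` such that `b₂ = a₁² + 4 a₂` is a unit, `a₄` has positive valuation `η` and `2` is
integral.  For the clipped valuation `α P = max 0 (min (w (x P)) η)` (`α 0 = 0`) we prove the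
parallelogram law, hence `α (m • P) ≡ ± m α P mod 2 η`, hence `n α P ∈ 2 η ℤ` if `n • P = 0`.
-/

set_option autoImplicit false
set_option linter.unusedSectionVars false

open WeierstrassCurve WeierstrassCurve.Affine

namespace Fermat.Agent.H55

open Fermat.Agent.H71 Fermat.Agent.H38 Fermat.Agent.H70

variable {K : Type*} [Field K] [DecidableEq K]

/-- The model `y² + a₁ x y = x³ + a₂ x² + a₄ x`. -/
structure IsNodeModel (W : WeierstrassCurve K) : Prop where
  a₃ : W.a₃ = 0
  a₆ : W.a₆ = 0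

namespace IsNodeModel

variable {W : WeierstrassCurve K}

lemma b₄ (hW : IsNodeModel W) : W.b₄ = 2 * W.a₄ := by
  simp only [WeierstrassCurve.b₄, hW.a₃]; ring

lemma b₆ (hW : IsNodeModel W) : W.b₆ = 0 := by
  simp only [WeierstrassCurve.b₆, hW.a₃, hW.a₆]; ring

lemma b₈ (hW : IsNodeModel W) : W.b₈ = -W.a₄ ^ 2 := by
  simp only [WeierstrassCurve.b₈, hW.a₃, hW.a₆]; ring

lemma dblDen_eq (hW : IsNodeModel W) (x : K) :
    dblDen W x = 4 * x ^ 3 + W.b₂ * x ^ 2 + 4 * W.a₄ * x := by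
  simp only [dblDen, hW.b₄, hW.b₆]; ring

lemma dblNum_eq (hW : IsNodeModel W) (x : K) : dblNum W x = (x ^ 2 - W.a₄) ^ 2 := by
  simp only [dblNum, hW.b₄, hW.b₆, hW.b₈]; ring

lemma spSum_eq (hW : IsNodeModel W) (x₁ x₂ : K) :
    spSum W x₁ x₂ = 2 * ((x₂ + x₁) * (x₂ * x₁ + W.a₄)) + W.b₂ * x₂ * x₁ := by
  simp only [spSum, hW.b₄, hW.b₆]; ring

lemma spProd_eq (hW : IsNodeModel W) (x₁ x₂ : K) :
    spProd W x₁ x₂ = (x₂ * x₁ - W.a₄) ^ 2 := by
  simp only [spProd, hW.b₄, hW.b₆, hW.b₈]; ring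

end IsNodeModel

section

variable {v : AddVal K} {W : WeierstrassCurve K}

lemma alpha_eq_alphaX_xc {P : W.toAffine.Point} (hP : P ≠ 0) :
    alpha v W P = alphaX v W.a₄ (xc W P) := by
  cases P with
  | zero => exact absurd rfl hP
  | some x y h => rfl

lemma alphaG_nonneg (hd : NodeDataG v W.b₂ W.a₄) (P : W.toAffine.Point) : 0 ≤ alpha v W P := by
  cases P with
  | zero => exact le_rfl
  | some x y h => exact alphaXG_nonneg v hd x

lemma alphaG_le (hd : NodeDataG v W.b₂ W.a₄) (P : W.toAffine.Point) :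
    alpha v W P ≤ v.w W.a₄ := by
  cases P with
  | zero => exact hd.w_b.le
  | some x y h => exact alphaXG_le v hd x

/-- Doubling. -/
theorem alphaG_double (hW : IsNodeModel W) (hd : NodeDataG v W.b₂ W.a₄)
    (P : W.toAffine.Point) :
    alpha v W (P + P) = Fp (v.w W.a₄) (alpha v W P) (alpha v W P) := by
  by_cases hP : P = 0
  · subst hP
    rw [add_zero, alpha_zero]
    unfold Fp; rw [add_zero, min_eq_left (by linarith [hd.w_b])]
  rw [← two_nsmul]
  by_cases h2 : 2 • P = 0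
  · rw [h2, alpha_zero, alpha_eq_alphaX_xc hP]
    have hden := (two_nsmul_eq_zero_iff W hP).mp h2
    rw [hW.dblDen_eq] at hden
    exact (FpG_two_torsion v hd hden).symm
  · have hden : dblDen W (xc W P) ≠ 0 := fun h0 => h2 ((two_nsmul_eq_zero_iff W hP).mpr h0)
    have hz := xc_two_nsmul W hP h2
    rw [hW.dblNum_eq] at hz
    rw [hW.dblDen_eq] at hz hden
    rw [alpha_eq_alphaX_xc h2, alpha_eq_alphaX_xc hP]
    exact dblG_alpha v hd hden hz

/-- The parallelogram law. -/
theorem alphaG_add_sub (hW : IsNodeModel W) (hd : NodeDataG v W.b₂ W.a₄)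
    (P Q : W.toAffine.Point) :
    (alpha v W (P + Q) = Fp (v.w W.a₄) (alpha v W P) (alpha v W Q) ∧
      alpha v W (P - Q) = Fm (alpha v W P) (alpha v W Q)) ∨
    (alpha v W (P + Q) = Fm (alpha v W P) (alpha v W Q) ∧
      alpha v W (P - Q) = Fp (v.w W.a₄) (alpha v W P) (alpha v W Q)) := by
  by_cases hP : P = 0
  · subst hP
    left
    rw [zero_add, zero_sub, alpha_neg, alpha_zero, Fp_zero_left (alphaG_le hd Q),
      Fm_zero_left (alphaG_nonneg hd Q)]
    exact ⟨rfl, rfl⟩
  by_cases hQ : Q = 0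
  · subst hQ
    left
    rw [add_zero, sub_zero, alpha_zero, Fp_zero_right (alphaG_le hd P),
      Fm_zero_right (alphaG_nonneg hd P)]
    exact ⟨rfl, rfl⟩
  by_cases hPQ : P = Q
  · subst hPQ
    left
    rw [sub_self, alpha_zero, Fm_self]
    exact ⟨alphaG_double hW hd P, rfl⟩
  by_cases hPQ' : P = -Q
  · subst hPQ'
    right
    rw [neg_add_cancel, alpha_zero, alpha_neg, Fm_self]
    refine ⟨rfl, ?_⟩
    have : -Q - Q = -(Q + Q) := by abel
    rw [this, alpha_neg]
    exact alphaG_double hW hd Q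
  have hx : xc W P ≠ xc W Q := by
    intro hx
    rcases eq_or_eq_neg_of_xc_eq W hP hQ hx with h | h
    · exact hPQ h
    · exact hPQ' h
  have hadd : P + Q ≠ 0 := xc_ne_imp_add_ne_zero W hx.symm
  have hsub : P - Q ≠ 0 := xc_ne_imp_sub_ne_zero W hx.symm
  have hS := xc_add_add_xc_sub W hQ hP hx.symm
  have hPi := xc_add_mul_xc_sub W hQ hP hx.symm
  rw [hW.spSum_eq] at hS
  rw [hW.spProd_eq] at hPi
  rw [alpha_eq_alphaX_xc hadd, alpha_eq_alphaX_xc hsub, alpha_eq_alphaX_xc hP,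
    alpha_eq_alphaX_xc hQ]
  exact chordG_alpha v hd ⟨hx, hPi, hS⟩

/-- `α (m • P) ≈ m * α P`. -/
theorem alphaG_nsmul_rel (hW : IsNodeModel W) (hd : NodeDataG v W.b₂ W.a₄)
    (P : W.toAffine.Point) (m : ℕ) :
    Rel (v.w W.a₄) (alpha v W (m • P)) (m * alpha v W P) := by
  have h := rel_of_parallelogram (v.w W.a₄) (fun m => alpha v W (m • P))
    (by simp) (by
      intro m
      have := alphaG_add_sub hW hd ((m + 1) • P) P
      have e1 : (m + 1) • P + P = (m + 2) • P := (succ_nsmul P (m + 1)).symm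
      have e2 : (m + 1) • P - P = m • P := by rw [succ_nsmul, add_sub_cancel_right]
      rw [e1, e2] at this
      simpa using this) m
  simpa using h

/-- If `n • P = 0` then `n * α P ∈ 2 η ℤ`. -/
theorem alphaG_torsion (hW : IsNodeModel W) (hd : NodeDataG v W.b₂ W.a₄)
    (P : W.toAffine.Point) {n : ℕ} (hP : n • P = 0) :
    ∃ k : ℤ, (n : ℝ) * alpha v W P = 2 * k * v.w W.a₄ := by
  have h := alphaG_nsmul_rel hW hd P n
  rw [hP, alpha_zero] at h
  obtain ⟨k, hk | hk⟩ := h
  · exact ⟨-k, by push_cast; linarith⟩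
  · exact ⟨k, by linarith⟩

/-- The points with `α = 0` (nonsingular reduction) are stable under multiples. -/
theorem alphaG_nsmul_eq_zero (hW : IsNodeModel W) (hd : NodeDataG v W.b₂ W.a₄)
    {P : W.toAffine.Point} (hP : alpha v W P = 0) (m : ℕ) : alpha v W (m • P) = 0 := by
  obtain ⟨k, hk⟩ := alphaG_nsmul_rel hW hd P m
  rw [hP, mul_zero, neg_zero, zero_add, or_self] at hk
  have h0 := alphaG_nonneg hd (m • P)
  have h1 := alphaG_le hd (m • P)
  have hη := hd.w_b
  rw [hk] at h0 h1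
  -- `0 ≤ 2 k η ≤ η` forces `k = 0`
  have hk0 : k = 0 := by
    by_contra hne
    rcases lt_or_gt_of_ne hne with hlt | hgt
    · have : (k : ℝ) ≤ -1 := by exact_mod_cast Int.le_sub_one_of_lt hlt
      nlinarith
    · have : (1 : ℝ) ≤ k := by exact_mod_cast hgt
      nlinarith
  rw [hk, hk0]
  simp

end

end Fermat.Agent.H55
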