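import Mathlib.Tactic
import Mathlib.RingTheory.Henselian
import Mathlib.RingTheory.LocalRing.MaximalIdeal.Basic
import Mathlib.RingTheory.AdicCompletion.Basic
import Mathlib.RingTheory.HopkinsLevitzki

/-!
# Hensel's lemma for (not necessarily monic) quadratics with unit linear coefficient

`a t ^ 2 + b t + c = 0` with `b` a unit and `c` in the maximal ideal has exactly one root in the
maximal ideal of a Henselian local ring.
-/

namespace Fermat.Agent.H55

open IsLocalRing Polynomial

variable {A : Type*} [CommRing A]

/-- Uniqueness of the small root of a quadratic with unit linear coefficient (any local ring). -/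
theorem quadratic_root_unique [IsLocalRing A] {a b c t t' : A} (hb : IsUnit b)
    (ht : t ∈ maximalIdeal A) (ht' : t' ∈ maximalIdeal A)
    (h : a * t ^ 2 + b * t + c = 0) (h' : a * t' ^ 2 + b * t' + c = 0) : t = t' := by
  have hu : IsUnit (a * (t + t') + b) := by
    by_contra hcon
    have hmem : a * (t + t') + b ∈ maximalIdeal A := (mem_maximalIdeal _).2 hcon
    have h1 : a * (t + t') ∈ maximalIdeal A :=
      Ideal.mul_mem_left _ _ (Ideal.add_mem _ ht ht')
    have h2 : b ∈ maximalIdeal A := by
      have := Ideal.sub_mem _ hmem h1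
      simpa using this
    exact (mem_maximalIdeal _).1 h2 hb
  have hz : (a * (t + t') + b) * (t - t') = 0 := by
    linear_combination h - h'
  have := hu.mul_right_eq_zero.mp hz
  exact sub_eq_zero.mp this

/-- Existence of the small root of a quadratic with unit linear coefficient and constant term in
the maximal ideal, in a local ring that is Henselian along its maximal ideal. -/
theorem quadratic_root_exists [IsLocalRing A] [HenselianRing A (maximalIdeal A)] {a b c : A}
    (hb : IsUnit b) (hc : c ∈ maximalIdeal A) :
    ∃ t ∈ maximalIdeal A, a * t ^ 2 + b * t + c = 0 := by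
  -- monic auxiliary polynomial `g = X^2 + b X + a c`, whose small root is `u = a t`.
  let g : A[X] := X ^ 2 + C b * X + C (a * c)
  have hg : g.Monic := by
    have : g = X ^ 2 + (C b * X + C (a * c)) := by simp only [g]; ring
    rw [this]
    apply Polynomial.monic_X_pow_add
    refine lt_of_le_of_lt (degree_add_le _ _) ?_
    refine max_lt ?_ ?_
    · refine lt_of_le_of_lt (degree_C_mul_X_le b) ?_
      norm_num
    · refine lt_of_le_of_lt degree_C_le ?_
      norm_num
  have h0 : g.eval 0 = a * c := by simp [g]
  have hd : g.derivative.eval 0 = b := by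
    simp [g]
  have h1 : (Polynomial.eval 0 g) ∈ maximalIdeal A := by
    rw [h0]; exact Ideal.mul_mem_left _ _ hc
  have h2 : IsUnit (Ideal.Quotient.mk (maximalIdeal A) (Polynomial.eval 0 (derivative g))) := by
    rw [hd]; exact hb.map _
  obtain ⟨u, hu, hu0⟩ := HenselianRing.is_henselian (I := maximalIdeal A) g hg 0 h1 h2
  rw [sub_zero] at hu0
  have hroot : u ^ 2 + b * u + a * c = 0 := by
    have := hu
    simpa [g, Polynomial.IsRoot] using this
  have hub : IsUnit (u + b) := by
    by_contra hcon
    have hmem : u + b ∈ maximalIdeal A := (mem_maximalIdeal _).2 hcon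
    have h2 : b ∈ maximalIdeal A := by
      have := Ideal.sub_mem _ hmem hu0
      simpa using this
    exact (mem_maximalIdeal _).1 h2 hb
  obtain ⟨w, hw⟩ := hub
  refine ⟨-(c * (↑w⁻¹ : A)), ?_, ?_⟩
  · exact (Ideal.neg_mem_iff _).2 (Ideal.mul_mem_right _ _ hc)
  · have hw1 : (u + b) * (↑w⁻¹ : A) = 1 := by rw [← hw]; exact w.mul_inv
    -- a t = u
    have hat : a * (-(c * (↑w⁻¹ : A))) = u := by
      have e1 : u * (u + b) = -(a * c) := by linear_combination hroot
      calc a * (-(c * (↑w⁻¹ : A))) = (-(a * c)) * (↑w⁻¹ : A) := by ring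
        _ = u * (u + b) * (↑w⁻¹ : A) := by rw [e1]
        _ = u * ((u + b) * (↑w⁻¹ : A)) := by ring
        _ = u := by rw [hw1, mul_one]
    have : a * (-(c * (↑w⁻¹ : A))) ^ 2 + b * (-(c * (↑w⁻¹ : A))) + c
        = (a * (-(c * (↑w⁻¹ : A))) + b) * (-(c * (↑w⁻¹ : A))) + c := by ring
    rw [this, hat]
    calc (u + b) * (-(c * (↑w⁻¹ : A))) + c = -(c * ((u + b) * (↑w⁻¹ : A))) + c := by ring
      _ = 0 := by rw [hw1]; ring

end Fermat.Agent.H55

namespace Fermat.Agent.H55

open IsLocalRing

/-- A module is adically complete with respect to a nilpotent ideal. -/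
theorem isAdicComplete_of_pow_eq_bot {A : Type*} [CommRing A] (I : Ideal A)
    (M : Type*) [AddCommGroup M] [Module A M] {n : ℕ} (hn : I ^ n = ⊥) :
    IsAdicComplete I M where
  haus' := by
    intro x hx
    have := hx n
    rw [hn, Submodule.bot_smul, SModEq.bot] at this
    exact this
  prec' := by
    intro f hf
    refine ⟨f n, fun k => ?_⟩
    rcases le_total k n with hkn | hkn
    · exact hf hkn
    · have := hf hkn
      rw [hn, Submodule.bot_smul, SModEq.bot] at this
      rw [this]

/-- A local ring with nilpotent maximal ideal is Henselian along its maximal ideal. -/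
theorem henselianRing_of_pow_eq_bot {A : Type*} [CommRing A] [IsLocalRing A] {n : ℕ}
    (hn : maximalIdeal A ^ n = ⊥) : HenselianRing A (maximalIdeal A) :=
  haveI := isAdicComplete_of_pow_eq_bot (maximalIdeal A) A hn
  inferInstance

/-- Existence of the small root of a quadratic, local ring with nilpotent maximal ideal. -/
theorem quadratic_root_exists_of_pow_eq_bot {A : Type*} [CommRing A] [IsLocalRing A] {n : ℕ}
    (hn : maximalIdeal A ^ n = ⊥) {a b c : A}
    (hb : IsUnit b) (hc : c ∈ maximalIdeal A) :
    ∃ t ∈ maximalIdeal A, a * t ^ 2 + b * t + c = 0 :=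
  haveI := henselianRing_of_pow_eq_bot hn
  quadratic_root_exists hb hc

/-- An Artinian local ring is Henselian along its maximal ideal. -/
theorem henselianRing_of_isArtinianRing (A : Type*) [CommRing A] [IsLocalRing A]
    [IsArtinianRing A] : HenselianRing A (maximalIdeal A) := by
  obtain ⟨n, hn⟩ := (isArtinianRing_iff_isNilpotent_maximalIdeal A).mp inferInstance
  exact henselianRing_of_pow_eq_bot (by simpa using hn)

end Fermat.Agent.H55
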