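import Mathlib.Tactic
import Mathlib.LinearAlgebra.Matrix.Adjugate
import Mathlib.LinearAlgebra.Matrix.NonsingularInverse
import Mathlib.LinearAlgebra.Matrix.Trace
import Fermat.Agent.H55.HenselQuadratic

/-!
# Rigidification of `2 × 2` matrix lifts over a local ring

Let `A` be a local ring, `M0 M1 : Matrix (Fin 2) (Fin 2) A`.

* A pair is in *companion form at `M0`* if the first column of `M0` is `e₂`, i.e.
  `M0 0 0 = 0` and `M0 1 0 = 1`.
* Matrices intertwining two companion-form matrices are of the form `a • 1 + b • M0`.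
* If moreover an entry `(i, j)` of the commutator `M1 * M0 - M0 * M1` is a unit, then prescribing
  the `(i, j)` entry of the conjugate of `M1` pins the conjugating matrix down up to a scalar
  (uniqueness), and over a Henselian local ring every prescribed value congruent to `M1 i j` is
  attained (existence).
-/

namespace Fermat.Agent.H55

open IsLocalRing Matrix

variable {A : Type*} [CommRing A]

/-- The matrix with columns `e₁` and `M0 e₁`. -/
def frameOf (M0 : Matrix (Fin 2) (Fin 2) A) : Matrix (Fin 2) (Fin 2) A :=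
  !![1, M0 0 0; 0, M0 1 0]

/-- The companion matrix of the characteristic polynomial of `M0`. -/
def companionOf (M0 : Matrix (Fin 2) (Fin 2) A) : Matrix (Fin 2) (Fin 2) A :=
  !![0, -M0.det; 1, M0.trace]

@[simp] theorem companionOf_zero_zero (M0 : Matrix (Fin 2) (Fin 2) A) :
    companionOf M0 0 0 = 0 := rfl

@[simp] theorem companionOf_one_zero (M0 : Matrix (Fin 2) (Fin 2) A) :
    companionOf M0 1 0 = 1 := rfl

theorem det_frameOf (M0 : Matrix (Fin 2) (Fin 2) A) : (frameOf M0).det = M0 1 0 := by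
  simp [frameOf, Matrix.det_fin_two]

/-- `M0 * frameOf M0 = frameOf M0 * companionOf M0` (Cayley–Hamilton in dimension two). -/
theorem mul_frameOf (M0 : Matrix (Fin 2) (Fin 2) A) :
    M0 * frameOf M0 = frameOf M0 * companionOf M0 := by
  ext a b
  fin_cases a <;> fin_cases b <;>
    simp [frameOf, companionOf, Matrix.mul_apply, Fin.sum_univ_two, Matrix.det_fin_two,
      Matrix.trace_fin_two] <;> ring

/-- Matrices intertwining two matrices in companion form are `a • 1 + b • M0`. -/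
theorem eq_add_smul_of_companion {M0 M0' X : Matrix (Fin 2) (Fin 2) A}
    (h00 : M0 0 0 = 0) (h10 : M0 1 0 = 1) (h00' : M0' 0 0 = 0) (h10' : M0' 1 0 = 1)
    (hX : X * M0' = M0 * X) :
    X = X 0 0 • (1 : Matrix (Fin 2) (Fin 2) A) + X 1 0 • M0 := by
  have e0 := congrFun (congrFun hX 0) 0
  have e1 := congrFun (congrFun hX 1) 0
  simp only [Matrix.mul_apply, Fin.sum_univ_two, h00, h10, h00', h10'] at e0 e1
  ext a b
  fin_cases a <;> fin_cases b <;>
    simp [Matrix.add_apply, Matrix.smul_apply, h00, h10] <;>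
    first
      | linear_combination e0
      | linear_combination e1

theorem adjugate_two_apply_zero_zero (M : Matrix (Fin 2) (Fin 2) A) :
    M.adjugate 0 0 = M 1 1 := by rw [Matrix.adjugate_fin_two]; rfl

theorem adjugate_two_apply_zero_one (M : Matrix (Fin 2) (Fin 2) A) :
    M.adjugate 0 1 = -M 0 1 := by rw [Matrix.adjugate_fin_two]; rfl

theorem adjugate_two_apply_one_zero (M : Matrix (Fin 2) (Fin 2) A) :
    M.adjugate 1 0 = -M 1 0 := by rw [Matrix.adjugate_fin_two]; rfl

theorem adjugate_two_apply_one_one (M : Matrix (Fin 2) (Fin 2) A) :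
    M.adjugate 1 1 = M 0 0 := by rw [Matrix.adjugate_fin_two]; rfl

/-- The quadratic identity behind the second normalisation. -/
theorem conj_entry_identity (M0 M1 : Matrix (Fin 2) (Fin 2) A) (i j : Fin 2) (c0 t : A) :
    ((1 + t • M0).adjugate * M1 * (1 + t • M0)) i j - c0 * (1 + t • M0).det
      = ((M0.adjugate * M1 * M0) i j - c0 * M0.det) * t ^ 2
        + ((M1 * M0 - M0 * M1) i j + M0.trace * (M1 i j - c0)) * t + (M1 i j - c0) := by
  fin_cases i <;> fin_cases j <;>
    simp only [Matrix.mul_apply, Fin.sum_univ_two, Matrix.det_fin_two, Matrix.trace_fin_two,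
      adjugate_two_apply_zero_zero, adjugate_two_apply_zero_one, adjugate_two_apply_one_zero,
      adjugate_two_apply_one_one, Matrix.add_apply, Matrix.smul_apply, Matrix.sub_apply,
      Matrix.one_apply_eq, Matrix.one_apply_ne, smul_eq_mul, Fin.zero_eta, Fin.mk_one,
      ne_eq, Fin.isValue, one_ne_zero, zero_ne_one, not_false_eq_true] <;> ring

theorem det_one_add_smul (M0 : Matrix (Fin 2) (Fin 2) A) (t : A) :
    (1 + t • M0).det = 1 + t * M0.trace + t ^ 2 * M0.det := by
  simp [Matrix.det_fin_two, Matrix.trace_fin_two, Matrix.add_apply, Matrix.smul_apply]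
  ring

theorem isUnit_add_of_mem_maximalIdeal [IsLocalRing A] {u x : A} (hu : IsUnit u)
    (hx : x ∈ maximalIdeal A) : IsUnit (u + x) := by
  by_contra hcon
  have hmem : u + x ∈ maximalIdeal A := (mem_maximalIdeal _).2 hcon
  have h2 : u ∈ maximalIdeal A := by
    have := Ideal.sub_mem _ hmem hx
    simpa using this
  exact (mem_maximalIdeal _).1 h2 hu

theorem isUnit_det_one_add_smul [IsLocalRing A] (M0 : Matrix (Fin 2) (Fin 2) A) {t : A}
    (ht : t ∈ maximalIdeal A) : IsUnit (1 + t • M0).det := by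
  rw [det_one_add_smul]
  have : t * M0.trace + t ^ 2 * M0.det ∈ maximalIdeal A :=
    Ideal.add_mem _ (Ideal.mul_mem_right _ _ ht)
      (Ideal.mul_mem_right _ _ (Ideal.pow_mem_of_mem _ ht 2 (by norm_num)))
  rw [add_assoc]
  exact isUnit_add_of_mem_maximalIdeal isUnit_one this

/-- Existence of the second normalisation: over a Henselian local ring, the `(i, j)` entry of the
conjugate of `M1` by `1 + t • M0` attains any prescribed value `c0 ≡ M1 i j`, provided the
`(i, j)` entry of the commutator is a unit. -/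
theorem exists_conj_entry [IsLocalRing A] [HenselianRing A (maximalIdeal A)]
    (M0 M1 : Matrix (Fin 2) (Fin 2) A) (i j : Fin 2) (c0 : A)
    (hc : M1 i j - c0 ∈ maximalIdeal A) (hu : IsUnit ((M1 * M0 - M0 * M1) i j)) :
    ∃ t ∈ maximalIdeal A,
      ((1 + t • M0).adjugate * M1 * (1 + t • M0)) i j = c0 * (1 + t • M0).det := by
  have hb : IsUnit ((M1 * M0 - M0 * M1) i j + M0.trace * (M1 i j - c0)) :=
    isUnit_add_of_mem_maximalIdeal hu (Ideal.mul_mem_left _ _ hc)
  obtain ⟨t, ht, hroot⟩ := quadratic_root_exists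
    (a := (M0.adjugate * M1 * M0) i j - c0 * M0.det) hb hc
  refine ⟨t, ht, ?_⟩
  have := conj_entry_identity M0 M1 i j c0 t
  rw [← sub_eq_zero, this]
  linear_combination hroot

/-- Uniqueness of the second normalisation (any local ring). -/
theorem conj_entry_unique [IsLocalRing A]
    (M0 M1 : Matrix (Fin 2) (Fin 2) A) (i j : Fin 2) (c0 : A)
    (hu : IsUnit ((M1 * M0 - M0 * M1) i j)) (hc : M1 i j - c0 ∈ maximalIdeal A)
    {t t' : A} (ht : t ∈ maximalIdeal A) (ht' : t' ∈ maximalIdeal A)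
    (h : ((1 + t • M0).adjugate * M1 * (1 + t • M0)) i j = c0 * (1 + t • M0).det)
    (h' : ((1 + t' • M0).adjugate * M1 * (1 + t' • M0)) i j = c0 * (1 + t' • M0).det) :
    t = t' := by
  have hb : IsUnit ((M1 * M0 - M0 * M1) i j + M0.trace * (M1 i j - c0)) :=
    isUnit_add_of_mem_maximalIdeal hu (Ideal.mul_mem_left _ _ hc)
  have e := conj_entry_identity M0 M1 i j c0 t
  have e' := conj_entry_identity M0 M1 i j c0 t'
  rw [h, sub_self] at e
  rw [h', sub_self] at e'
  refine quadratic_root_unique hb ht ht' (c := M1 i j - c0)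
    (a := (M0.adjugate * M1 * M0) i j - c0 * M0.det) ?_ ?_
  · linear_combination -e
  · linear_combination -e'

/-- Rigidity: an intertwiner between two pairs `(M0, M1)`, `(M0', M1')` in companion form at `M0`,
with equal `(i, j)` entries of `M1`, `M1'`, congruent `M1 ≡ M1'` modulo the maximal ideal and unit
`(i, j)` entry of the commutator, is a scalar matrix. -/
theorem rigid_intertwiner_eq_smul_one [IsLocalRing A]
    {M0 M1 M0' M1' X : Matrix (Fin 2) (Fin 2) A} {i j : Fin 2}
    (hX0 : X * M0' = M0 * X) (hX1 : X * M1' = M1 * X)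
    (h00 : M0 0 0 = 0) (h10 : M0 1 0 = 1) (h00' : M0' 0 0 = 0) (h10' : M0' 1 0 = 1)
    (hij : M1' i j = M1 i j)
    (hred : ∀ a b, M1' a b - M1 a b ∈ maximalIdeal A)
    (hu : IsUnit ((M1 * M0 - M0 * M1) i j)) :
    X = X 0 0 • (1 : Matrix (Fin 2) (Fin 2) A) := by
  have hXeq := eq_add_smul_of_companion h00 h10 h00' h10' hX0
  set a := X 0 0 with ha
  set b := X 1 0 with hb
  -- entry `(i, j)` of `X * M1' = M1 * X`
  have key : b * ((M0 * M1') i j - (M1 * M0) i j) = 0 := by
    have e := congrFun (congrFun hX1 i) j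
    rw [hXeq] at e
    simp only [Matrix.add_mul, Matrix.mul_add, Matrix.smul_mul, Matrix.mul_smul, Matrix.one_mul,
      Matrix.mul_one, Matrix.add_apply, Matrix.smul_apply, smul_eq_mul, hij] at e
    linear_combination e
  have hunit : IsUnit ((M0 * M1') i j - (M1 * M0) i j) := by
    have hdiff : (M0 * M1') i j - (M1 * M0) i j
        = -((M1 * M0 - M0 * M1) i j) + (M0 * (M1' - M1)) i j := by
      simp only [Matrix.mul_sub, Matrix.sub_apply]
      ring
    rw [hdiff]
    refine isUnit_add_of_mem_maximalIdeal hu.neg ?_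
    rw [Matrix.mul_apply]
    refine Ideal.sum_mem _ fun c _ => Ideal.mul_mem_left _ _ ?_
    rw [Matrix.sub_apply]
    exact hred c j
  have hb0 : b = 0 := by
    have := hunit.mul_left_eq_zero.mp key
    exact this
  rw [hXeq, hb0, zero_smul, add_zero]

section Existence

variable [IsLocalRing A]

/-- Entrywise reduction of matrices modulo the maximal ideal. -/
noncomputable def redMat : Matrix (Fin 2) (Fin 2) A →+* Matrix (Fin 2) (Fin 2) (ResidueField A) :=
  (residue A).mapMatrix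

theorem redMat_apply (P : Matrix (Fin 2) (Fin 2) A) (a b : Fin 2) :
    redMat P a b = residue A (P a b) := rfl

theorem redMat_eq_iff {P Q : Matrix (Fin 2) (Fin 2) A} :
    redMat P = redMat Q ↔ ∀ a b, P a b - Q a b ∈ maximalIdeal A := by
  constructor
  · intro h a b
    have := congrFun (congrFun h a) b
    rw [redMat_apply, redMat_apply, ← sub_eq_zero, ← map_sub] at this
    exact (residue_eq_zero_iff _).1 this
  · intro h
    ext a b
    rw [redMat_apply, redMat_apply, ← sub_eq_zero, ← map_sub]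
    exact (residue_eq_zero_iff _).2 (h a b)

theorem redMat_frameOf {M0 : Matrix (Fin 2) (Fin 2) A} (h00 : M0 0 0 ∈ maximalIdeal A)
    (h10 : M0 1 0 - 1 ∈ maximalIdeal A) : redMat (frameOf M0) = 1 := by
  rw [← map_one redMat, redMat_eq_iff]
  intro a b
  fin_cases a <;> fin_cases b <;> simp [frameOf, h00, h10]

theorem isUnit_of_redMat_eq_one {X : Matrix (Fin 2) (Fin 2) A} (h : redMat X = 1) :
    IsUnit X := by
  rw [Matrix.isUnit_iff_isUnit_det]
  have h1 : residue A X.det = 1 := by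
    have : (redMat X).det = 1 := by rw [h, Matrix.det_one]
    rw [← this]
    exact RingHom.map_det _ _
  by_contra hcon
  have hmem : X.det ∈ maximalIdeal A := (mem_maximalIdeal _).2 hcon
  rw [(residue_eq_zero_iff _).2 hmem] at h1
  exact zero_ne_one h1

theorem redMat_inv_of_redMat_eq_one (X : (Matrix (Fin 2) (Fin 2) A)ˣ)
    (h : redMat (X : Matrix (Fin 2) (Fin 2) A) = 1) :
    redMat ((X⁻¹ : (Matrix (Fin 2) (Fin 2) A)ˣ) : Matrix (Fin 2) (Fin 2) A) = 1 := by
  have : redMat ((X⁻¹ : (Matrix (Fin 2) (Fin 2) A)ˣ) : Matrix (Fin 2) (Fin 2) A)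
      * redMat (X : Matrix (Fin 2) (Fin 2) A) = 1 := by
    rw [← map_mul, Units.inv_mul, map_one]
  rwa [h, mul_one] at this

/-- **Rigidification, existence.**  Let `A` be a Henselian local ring and `M0 M1` two `2 × 2`
matrices over `A` such that the first column of `M0` is congruent to `e₂`, the `(i, j)` entry of
`M1` is congruent to `c0` and the `(i, j)` entry of the commutator `M1 * M0 - M0 * M1` is a unit.
Then there is an invertible matrix `X ≡ 1` such that `X⁻¹ M0 X` has first column exactly `e₂` and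
`X⁻¹ M1 X` has `(i, j)` entry exactly `c0`. -/
theorem exists_rigidify [HenselianRing A (maximalIdeal A)]
    (M0 M1 : Matrix (Fin 2) (Fin 2) A) (i j : Fin 2) (c0 : A)
    (h00 : M0 0 0 ∈ maximalIdeal A) (h10 : M0 1 0 - 1 ∈ maximalIdeal A)
    (hc : M1 i j - c0 ∈ maximalIdeal A) (hu : IsUnit ((M1 * M0 - M0 * M1) i j)) :
    ∃ X : (Matrix (Fin 2) (Fin 2) A)ˣ,
      (∀ a b, ((X : Matrix (Fin 2) (Fin 2) A) - 1) a b ∈ maximalIdeal A) ∧
      ((↑X⁻¹ : Matrix (Fin 2) (Fin 2) A) * M0 * X) 0 0 = 0 ∧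
      ((↑X⁻¹ : Matrix (Fin 2) (Fin 2) A) * M0 * X) 1 0 = 1 ∧
      ((↑X⁻¹ : Matrix (Fin 2) (Fin 2) A) * M1 * X) i j = c0 := by
  -- first step: conjugate by the frame `[e₁ | M0 e₁]`
  have hF1 : redMat (frameOf M0) = 1 := redMat_frameOf h00 h10
  obtain ⟨X1, hX1⟩ := isUnit_of_redMat_eq_one hF1
  have hX1red : redMat (X1 : Matrix (Fin 2) (Fin 2) A) = 1 := by rw [hX1]; exact hF1
  have hX1inv := redMat_inv_of_redMat_eq_one X1 hX1red
  set M0' := companionOf M0 with hM0'
  set M1' : Matrix (Fin 2) (Fin 2) A := (↑X1⁻¹ : Matrix (Fin 2) (Fin 2) A) * M1 * X1 with hM1'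
  have hconj0 : (↑X1⁻¹ : Matrix (Fin 2) (Fin 2) A) * M0 * X1 = M0' := by
    rw [mul_assoc, hX1, mul_frameOf, ← hX1, ← mul_assoc, Units.inv_mul, one_mul]
  have hred0 : redMat M0' = redMat M0 := by
    rw [← hconj0, map_mul, map_mul, hX1red, hX1inv, one_mul, mul_one]
  have hred1 : redMat M1' = redMat M1 := by
    rw [hM1', map_mul, map_mul, hX1red, hX1inv, one_mul, mul_one]
  have hc' : M1' i j - c0 ∈ maximalIdeal A := by
    have := (redMat_eq_iff.1 hred1) i j
    have h2 := Ideal.add_mem _ this hc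
    simpa using h2
  have hu' : IsUnit ((M1' * M0' - M0' * M1') i j) := by
    have hcomm : redMat (M1' * M0' - M0' * M1') = redMat (M1 * M0 - M0 * M1) := by
      simp only [map_sub, map_mul, hred0, hred1]
    have hmem := (redMat_eq_iff.1 hcomm) i j
    have := isUnit_add_of_mem_maximalIdeal hu hmem
    simpa using this
  -- second step: conjugate by `1 + t • M0'`
  obtain ⟨t, ht, hroot⟩ := exists_conj_entry M0' M1' i j c0 hc' hu'
  have hdet2 : IsUnit (1 + t • M0').det := isUnit_det_one_add_smul M0' ht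
  obtain ⟨X2, hX2⟩ := (Matrix.isUnit_iff_isUnit_det _).2 hdet2
  have hX2red : redMat (X2 : Matrix (Fin 2) (Fin 2) A) = 1 := by
    rw [hX2, ← map_one redMat, redMat_eq_iff]
    intro a b
    have e : (1 + t • M0' : Matrix (Fin 2) (Fin 2) A) - 1 = t • M0' := by
      rw [add_sub_cancel_left]
    have e2 : (1 + t • M0' : Matrix (Fin 2) (Fin 2) A) a b - (1 : Matrix (Fin 2) (Fin 2) A) a b
        = t * M0' a b := by
      rw [← Matrix.sub_apply, e, Matrix.smul_apply, smul_eq_mul]
    rw [e2]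
    exact Ideal.mul_mem_right _ _ ht
  have hcomm2 : (X2 : Matrix (Fin 2) (Fin 2) A) * M0' = M0' * X2 := by
    rw [hX2]
    simp only [add_mul, mul_add, one_mul, mul_one, Matrix.smul_mul, Matrix.mul_smul]
  have hconj2 : (↑X2⁻¹ : Matrix (Fin 2) (Fin 2) A) * M0' * X2 = M0' := by
    rw [mul_assoc, ← hcomm2, ← mul_assoc, Units.inv_mul, one_mul]
  have hinv2 : (↑X2⁻¹ : Matrix (Fin 2) (Fin 2) A)
      = (↑hdet2.unit⁻¹ : A) • (1 + t • M0').adjugate := by
    have h1 : (X2 : Matrix (Fin 2) (Fin 2) A) * ((↑hdet2.unit⁻¹ : A) • (1 + t • M0').adjugate)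
        = 1 := by
      rw [hX2, Matrix.mul_smul, Matrix.mul_adjugate, smul_smul]
      have : (↑hdet2.unit⁻¹ : A) * (1 + t • M0').det = 1 := by
        have := hdet2.unit.inv_mul
        simp
      rw [this, one_smul]
    calc (↑X2⁻¹ : Matrix (Fin 2) (Fin 2) A)
        = ↑X2⁻¹ * ((X2 : Matrix (Fin 2) (Fin 2) A)
            * ((↑hdet2.unit⁻¹ : A) • (1 + t • M0').adjugate)) := by rw [h1, mul_one]
      _ = (↑hdet2.unit⁻¹ : A) • (1 + t • M0').adjugate := by
          rw [← mul_assoc, Units.inv_mul, one_mul]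
  have hXval : ((X1 * X2 : (Matrix (Fin 2) (Fin 2) A)ˣ) : Matrix (Fin 2) (Fin 2) A)
      = (X1 : Matrix (Fin 2) (Fin 2) A) * (X2 : Matrix (Fin 2) (Fin 2) A) := Units.val_mul _ _
  have hXinv : (((X1 * X2)⁻¹ : (Matrix (Fin 2) (Fin 2) A)ˣ) : Matrix (Fin 2) (Fin 2) A)
      = (↑X2⁻¹ : Matrix (Fin 2) (Fin 2) A) * (↑X1⁻¹ : Matrix (Fin 2) (Fin 2) A) := by
    rw [_root_.mul_inv_rev, Units.val_mul]
  have hM0 : (((X1 * X2)⁻¹ : (Matrix (Fin 2) (Fin 2) A)ˣ) : Matrix (Fin 2) (Fin 2) A) * M0
      * ((X1 * X2 : (Matrix (Fin 2) (Fin 2) A)ˣ) : Matrix (Fin 2) (Fin 2) A) = M0' := by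
    rw [hXval, hXinv]
    calc (↑X2⁻¹ : Matrix (Fin 2) (Fin 2) A) * ↑X1⁻¹ * M0
          * ((X1 : Matrix (Fin 2) (Fin 2) A) * (X2 : Matrix (Fin 2) (Fin 2) A))
        = ↑X2⁻¹ * (↑X1⁻¹ * M0 * (X1 : Matrix (Fin 2) (Fin 2) A))
            * (X2 : Matrix (Fin 2) (Fin 2) A) := by simp only [mul_assoc]
      _ = M0' := by rw [hconj0, hconj2]
  have hM1 : (((X1 * X2)⁻¹ : (Matrix (Fin 2) (Fin 2) A)ˣ) : Matrix (Fin 2) (Fin 2) A) * M1
      * ((X1 * X2 : (Matrix (Fin 2) (Fin 2) A)ˣ) : Matrix (Fin 2) (Fin 2) A)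
      = (↑X2⁻¹ : Matrix (Fin 2) (Fin 2) A) * M1' * (X2 : Matrix (Fin 2) (Fin 2) A) := by
    rw [hXval, hXinv, hM1']
    simp only [mul_assoc]
  refine ⟨X1 * X2, ?_, ?_, ?_, ?_⟩
  · have : redMat ((X1 * X2 : (Matrix (Fin 2) (Fin 2) A)ˣ) : Matrix (Fin 2) (Fin 2) A)
        = redMat 1 := by
      rw [hXval, map_mul, hX1red, hX2red, one_mul, map_one]
    exact redMat_eq_iff.1 this
  · rw [hM0]; rfl
  · rw [hM0]; rfl
  · rw [hM1, hinv2, hX2, Matrix.smul_mul, Matrix.smul_mul, Matrix.smul_apply, hroot, smul_eq_mul]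
    have : (↑hdet2.unit⁻¹ : A) * (1 + t • M0').det = 1 := by
      have := hdet2.unit.inv_mul
      simp
    calc (↑hdet2.unit⁻¹ : A) * (c0 * (1 + t • M0').det)
        = c0 * ((↑hdet2.unit⁻¹ : A) * (1 + t • M0').det) := by ring
      _ = c0 := by rw [this, mul_one]

end Existence

end Fermat.Agent.H55
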