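import Fermat.Agent.H78.MatDefs
import Fermat.Agent.H55.Rigidify

/-!
# Existence of the normalized (rigid) conjugate of a matrix lift  (subtask H78-MAT-E)
-/

set_option autoImplicit false

namespace Fermat.Agent.H55

open IsLocalRing Matrix Fermat.Agent.H78

section conj

variable {A : Type} [CommRing A]

/-- Conjugation of a matrix valued monoid hom by an invertible matrix. -/
def conjHom {G : Type*} [Monoid G] (U : (M2 A)ˣ) (r : G →* M2 A) : G →* M2 A where
  toFun σ := (U : M2 A) * r σ * ((U⁻¹ : (M2 A)ˣ) : M2 A)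
  map_one' := by rw [map_one, mul_one, Units.mul_inv]
  map_mul' σ τ := by
    rw [map_mul]
    calc (U : M2 A) * (r σ * r τ) * ((U⁻¹ : (M2 A)ˣ) : M2 A)
        = (U : M2 A) * r σ * (((U⁻¹ : (M2 A)ˣ) : M2 A) * (U : M2 A)) * r τ
            * ((U⁻¹ : (M2 A)ˣ) : M2 A) := by
          rw [Units.inv_mul, mul_one]; simp only [mul_assoc]
      _ = (U : M2 A) * r σ * ((U⁻¹ : (M2 A)ˣ) : M2 A)
            * ((U : M2 A) * r τ * ((U⁻¹ : (M2 A)ˣ) : M2 A)) := by simp only [mul_assoc]

@[simp] theorem conjHom_apply {G : Type*} [Monoid G] (U : (M2 A)ˣ) (r : G →* M2 A) (σ : G) :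
    conjHom U r σ = (U : M2 A) * r σ * ((U⁻¹ : (M2 A)ˣ) : M2 A) := rfl

/-- Mapping a matrix over `O` to `A` entrywise commutes with taking entries of products. -/
theorem algebraMap_mul_apply {O : Type} [CommRing O] [Algebra O A] (P Q : M2 O) (a b : Fin 2) :
    algebraMap O A ((P * Q) a b)
      = ((P.map (algebraMap O A)) * (Q.map (algebraMap O A))) a b := by
  simp [Matrix.mul_apply, map_mul]

end conj

variable {O : Type} [CommRing O] [IsLocalRing O] {A : Type} [CommRing A] [IsLocalRing A]
  [Algebra O A] [IsLocalHom (algebraMap O A)]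

/-- **H78-MAT-E**: every lift is conjugate (by a matrix congruent to `1`) to a normalized lift. -/
theorem exists_normLift_conj [IsAdicComplete (maximalIdeal A) A] {G : Gauge O}
    {r : GalQ →* M2 A} (hr : IsLift G r) :
    ∃ (U : (M2 A)ˣ) (r' : GalQ →* M2 A), IsNormLift G r' ∧
      ∀ σ, r' σ = (U : M2 A) * r σ * ((U⁻¹ : (M2 A)ˣ) : M2 A) := by
  set M0 : M2 A := r G.ga with hM0
  set M1 : M2 A := r G.gb with hM1
  set c0 : A := algebraMap O A (G.lift G.gb G.i G.j) with hc0
  have h00 : M0 0 0 ∈ maximalIdeal A := by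
    have := hr G.ga 0 0
    rwa [G.ga_col0, map_zero, sub_zero] at this
  have h10 : M0 1 0 - 1 ∈ maximalIdeal A := by
    have := hr G.ga 1 0
    rwa [G.ga_col1, map_one] at this
  have hc : M1 G.i G.j - c0 ∈ maximalIdeal A := hr G.gb G.i G.j
  -- reductions of `M0`, `M1`
  have hred0 : redMat M0 = redMat ((G.lift G.ga).map (algebraMap O A)) :=
    redMat_eq_iff.2 fun a b => hr G.ga a b
  have hred1 : redMat M1 = redMat ((G.lift G.gb).map (algebraMap O A)) :=
    redMat_eq_iff.2 fun a b => hr G.gb a b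
  have hu : IsUnit ((M1 * M0 - M0 * M1) G.i G.j) := by
    have hu0 : IsUnit (algebraMap O A
        ((G.lift G.ga * G.lift G.gb - G.lift G.gb * G.lift G.ga) G.i G.j)) :=
      G.comm_unit.map (algebraMap O A)
    have hu1 : IsUnit (-(algebraMap O A
        ((G.lift G.ga * G.lift G.gb - G.lift G.gb * G.lift G.ga) G.i G.j))) := hu0.neg
    have e : -(algebraMap O A
        ((G.lift G.ga * G.lift G.gb - G.lift G.gb * G.lift G.ga) G.i G.j))
        = (((G.lift G.gb).map (algebraMap O A)) * ((G.lift G.ga).map (algebraMap O A))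
          - ((G.lift G.ga).map (algebraMap O A)) * ((G.lift G.gb).map (algebraMap O A)))
            G.i G.j := by
      rw [Matrix.sub_apply, Matrix.sub_apply, map_sub, algebraMap_mul_apply,
        algebraMap_mul_apply]
      ring
    rw [e] at hu1
    have hcomm : redMat (M1 * M0 - M0 * M1)
        = redMat (((G.lift G.gb).map (algebraMap O A)) * ((G.lift G.ga).map (algebraMap O A))
          - ((G.lift G.ga).map (algebraMap O A)) * ((G.lift G.gb).map (algebraMap O A))) := by
      simp only [map_sub, map_mul, hred0, hred1]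
    have hmem := (redMat_eq_iff.1 hcomm) G.i G.j
    have := isUnit_add_of_mem_maximalIdeal hu1 hmem
    simpa using this
  obtain ⟨X, hX1, hX00, hX10, hXij⟩ := exists_rigidify M0 M1 G.i G.j c0 h00 h10 hc hu
  have hXred : redMat (X : M2 A) = 1 := by
    rw [← map_one redMat]; exact redMat_eq_iff.2 hX1
  have hXinvred := redMat_inv_of_redMat_eq_one X hXred
  refine ⟨X⁻¹, conjHom X⁻¹ r, ⟨?_, ?_, ?_, ?_⟩, fun σ => rfl⟩
  · intro σ a b
    have e : redMat (conjHom X⁻¹ r σ) = redMat (r σ) := by
      rw [conjHom_apply, inv_inv, map_mul, map_mul, hXred, hXinvred, one_mul, mul_one]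
    have h1 := (redMat_eq_iff.1 e) a b
    have h2 := Ideal.add_mem _ h1 (hr σ a b)
    simpa using h2
  · rw [conjHom_apply, inv_inv]; exact hX00
  · rw [conjHom_apply, inv_inv]; exact hX10
  · rw [conjHom_apply, inv_inv]; exact hXij

end Fermat.Agent.H55
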