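import Fermat.Agent.H71.Chord

/-!
# The `x`-only component law at a node, in any residue characteristic (helper55, S13 / WP5)

This generalises `Fermat.Agent.H71.Chord` (which treats the short model `y² = x³ + a x² + b x`
with `2` a unit) to the model `y² + a₁ x y = x³ + a₂ x² + b x` with `c = b₂ = a₁² + 4 a₂` a unit
and `b` in the maximal ideal, with no assumption on the valuation of `2`.

The relations between the `x`-coordinates `x₁, x₂` of two points and the `x`-coordinates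
`zp, zm` of their sum and difference are
* `zp * zm * (x₁ - x₂)² = (x₁ x₂ - b)²`,
* `(zp + zm) * (x₁ - x₂)² = 2 (x₁ + x₂)(x₁ x₂ + b) + c x₁ x₂`.
-/

set_option autoImplicit false

namespace Fermat.Agent.H55

open Fermat.Agent.H71

variable {K : Type*} [Field K]

/-- Valuation data for the model `y² + a₁xy = x³ + a₂x² + bx` with a node at `x = 0`:
`c = b₂` is a unit, `b` has positive valuation, `2` is integral. -/
structure NodeDataG (v : AddVal K) (c b : K) : Prop where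
  two_ge : v.ge 2 0
  c_ne : c ≠ 0
  w_c : v.w c = 0
  b_ne : b ≠ 0
  w_b : 0 < v.w b

/-- The symmetric relations between the `x`-coordinates `x₁, x₂` of two points and the
`x`-coordinates `zp, zm` of their sum and difference. -/
structure ChordG (c b x₁ x₂ zp zm : K) : Prop where
  hx : x₁ ≠ x₂
  hP : zp * zm * (x₁ - x₂) ^ 2 = (x₁ * x₂ - b) ^ 2
  hS : (zp + zm) * (x₁ - x₂) ^ 2 = 2 * ((x₁ + x₂) * (x₁ * x₂ + b)) + c * x₁ * x₂

namespace ChordG

variable {c b x₁ x₂ zp zm : K}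

lemma symm (h : ChordG c b x₁ x₂ zp zm) : ChordG c b x₂ x₁ zp zm where
  hx := h.hx.symm
  hP := by linear_combination h.hP
  hS := by linear_combination h.hS

lemma swap (h : ChordG c b x₁ x₂ zp zm) : ChordG c b x₁ x₂ zm zp where
  hx := h.hx
  hP := by linear_combination h.hP
  hS := by linear_combination h.hS

lemma hD (h : ChordG c b x₁ x₂ zp zm) : x₁ - x₂ ≠ 0 := sub_ne_zero.mpr h.hx

end ChordG

section basics

variable (v : AddVal K) {c b x₁ x₂ : K}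

lemma ge_two_mul (hd : NodeDataG v c b) {X : K} {t : ℝ} (h : v.ge X t) : v.ge (2 * X) t := by
  have := hd.two_ge.mul v h
  exact this.mono v (by linarith)

lemma ge_four_mul (hd : NodeDataG v c b) {X : K} {t : ℝ} (h : v.ge X t) : v.ge (4 * X) t := by
  have h4 : (4 : K) * X = 2 * (2 * X) := by ring
  rw [h4]
  exact ge_two_mul v hd (ge_two_mul v hd h)

/-- valuation of `c * x₁ * x₂`. -/
lemma w_c_mul (hd : NodeDataG v c b) (h1 : x₁ ≠ 0) (h2 : x₂ ≠ 0) :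
    c * x₁ * x₂ ≠ 0 ∧ v.w (c * x₁ * x₂) = v.w x₁ + v.w x₂ := by
  have hc1 : c * x₁ ≠ 0 := mul_ne_zero hd.c_ne h1
  refine ⟨mul_ne_zero hc1 h2, ?_⟩
  rw [v.w_mul hc1 h2, v.w_mul hd.c_ne h1, hd.w_c]
  ring

lemma ge_c_mul (hd : NodeDataG v c b) {s t : ℝ} (h1 : v.ge x₁ s) (h2 : v.ge x₂ t) :
    v.ge (c * x₁ * x₂) (s + t) := by
  have hc : v.ge c 0 := Or.inr hd.w_c.ge
  have := (hc.mul v h1).mul v h2
  exact this.mono v (by linarith)

lemma sumG_exact {S D M : K} (hD : D ≠ 0) (h : S * D ^ 2 = M) (hM : M ≠ 0) :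
    S ≠ 0 ∧ v.w S = v.w M - 2 * v.w D := by
  have hS : S ≠ 0 := by
    rintro rfl
    rw [zero_mul] at h
    exact hM h.symm
  refine ⟨hS, ?_⟩
  have e := congrArg v.w h
  rw [v.w_mul hS (pow_ne_zero 2 hD), v.w_sq hD] at e
  linarith

lemma sumG_ge {S D M : K} {t : ℝ} (hD : D ≠ 0) (h : S * D ^ 2 = M) (hM : v.ge M t) :
    v.ge S (t - 2 * v.w D) := by
  by_cases hM0 : M = 0
  · subst hM0
    left
    rcases mul_eq_zero.mp h with h' | h'
    · exact h'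
    · exact absurd h' (pow_ne_zero 2 hD)
  · obtain ⟨_, e⟩ := sumG_exact v hD h hM0
    have := hM.w_le v hM0
    exact Or.inr (by linarith)

end basics

section cases

variable (v : AddVal K) {c b x₁ x₂ zp zm : K}

/-- Case (E,E): both `x₁, x₂` have valuation `≤ 0`. -/
lemma caseG_EE (hd : NodeDataG v c b) (h : ChordG c b x₁ x₂ zp zm)
    (h1 : x₁ ≠ 0) (h1w : v.w x₁ ≤ 0) (h2 : x₂ ≠ 0) (h2w : v.w x₂ ≤ 0) :
    (zp ≠ 0 ∧ v.w zp ≤ 0) ∧ (zm ≠ 0 ∧ v.w zm ≤ 0) := by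
  have hD := h.hD
  have h12 : x₁ * x₂ ≠ 0 := mul_ne_zero h1 h2
  have w12 := v.w_mul h1 h2
  have hbge : v.ge b (v.w b) := Or.inr le_rfl
  -- N
  obtain ⟨hN0, hNw⟩ := v.w_sub_of_lt h12 hbge (by rw [w12]; linarith [hd.w_b])
  obtain ⟨hP0, hPw⟩ := v.prod_exact hD h.hP hN0
  -- D
  have hDw : min (v.w x₁) (v.w x₂) ≤ v.w (x₁ - x₂) := by
    have := v.w_add h1 (neg_ne_zero.mpr h2) (by rwa [← sub_eq_add_neg])
    rwa [v.w_neg, ← sub_eq_add_neg] at this
  -- M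
  have hm1 : v.ge (x₁ + x₂) (min (v.w x₁) (v.w x₂)) :=
    (v.ge_of_w (min_le_left _ _)).add v (v.ge_of_w (min_le_right _ _))
  have hm2 : v.ge (x₁ * x₂ + b) (v.w x₁ + v.w x₂) :=
    (v.ge_of_w w12.ge).add v (hbge.mono v (by linarith [hd.w_b]))
  have hm3 : v.ge (c * x₁ * x₂) (v.w x₁ + v.w x₂) :=
    ge_c_mul v hd (v.ge_of_w le_rfl) (v.ge_of_w le_rfl)
  have hmin0 : min (v.w x₁) (v.w x₂) ≤ 0 := (min_le_left _ _).trans h1w
  have hM : v.ge (2 * ((x₁ + x₂) * (x₁ * x₂ + b)) + c * x₁ * x₂)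
      (min (v.w x₁) (v.w x₂) + (v.w x₁ + v.w x₂)) :=
    (ge_two_mul v hd (hm1.mul v hm2)).add v (hm3.mono v (by linarith))
  have hS := sumG_ge v hD h.hS hM
  have hminge : v.w x₁ + v.w x₂ ≤ min (v.w x₁) (v.w x₂) := le_min (by linarith) (by linarith)
  have hmax : v.w x₁ + v.w x₂ - v.w (x₁ - x₂) ≤ 0 := by
    rcases min_le_iff.mp (le_refl (min (v.w x₁) (v.w x₂))) with hh | hh <;> linarith
  refine v.roots_le_zero (t := v.w x₁ + v.w x₂ - v.w (x₁ - x₂)) hP0 ?_ hmax (hS.mono v ?_)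
  · rw [hPw, hNw, w12]; ring
  · linarith

/-- Case (E,M). -/
lemma caseG_EM (hd : NodeDataG v c b) (h : ChordG c b x₁ x₂ zp zm)
    (h1 : x₁ ≠ 0) (h1w : v.w x₁ ≤ 0) (h2 : x₂ ≠ 0) (h2w : 0 < v.w x₂) (h2w' : v.w x₂ < v.w b) :
    (zp ≠ 0 ∧ v.w zp = v.w x₂) ∧ (zm ≠ 0 ∧ v.w zm = v.w x₂) := by
  have hD := h.hD
  have h12 : x₁ * x₂ ≠ 0 := mul_ne_zero h1 h2
  have w12 := v.w_mul h1 h2
  have hbge : v.ge b (v.w b) := Or.inr le_rfl
  obtain ⟨hN0, hNw⟩ := v.w_sub_of_lt h12 hbge (by rw [w12]; linarith)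
  obtain ⟨hP0, hPw⟩ := v.prod_exact hD h.hP hN0
  obtain ⟨_, hDw⟩ := v.w_sub_of_lt h1 (v.ge_of_w (le_refl (v.w x₂))) (by linarith)
  have hm1 : v.ge (x₁ + x₂) (v.w x₁) :=
    (v.ge_of_w le_rfl).add v (v.ge_of_w (by linarith))
  have hm2 : v.ge (x₁ * x₂ + b) (v.w x₁ + v.w x₂) :=
    (v.ge_of_w w12.ge).add v (hbge.mono v (by linarith))
  have hm3 : v.ge (c * x₁ * x₂) (v.w x₁ + v.w x₂) :=
    ge_c_mul v hd (v.ge_of_w le_rfl) (v.ge_of_w le_rfl)
  have hM : v.ge (2 * ((x₁ + x₂) * (x₁ * x₂ + b)) + c * x₁ * x₂)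
      (v.w x₁ + (v.w x₁ + v.w x₂)) :=
    (ge_two_mul v hd (hm1.mul v hm2)).add v (hm3.mono v (by linarith))
  have hS := sumG_ge v hD h.hS hM
  refine v.roots_eq hP0 ?_ (hS.mono v ?_)
  · rw [hPw, hNw, w12, hDw]; ring
  · rw [hDw]; linarith

/-- Case (E,H). -/
lemma caseG_EH (hd : NodeDataG v c b) (h : ChordG c b x₁ x₂ zp zm)
    (h1 : x₁ ≠ 0) (h1w : v.w x₁ ≤ 0) (h2 : v.ge x₂ (v.w b)) :
    v.ge zp (v.w b) ∧ v.ge zm (v.w b) := by
  have hD := h.hD
  have hbge : v.ge b (v.w b) := Or.inr le_rfl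
  have hη := hd.w_b
  obtain ⟨_, hDw⟩ := v.w_sub_of_lt h1 h2 (by linarith)
  have h12 : v.ge (x₁ * x₂) (v.w x₁ + v.w b) := (v.ge_of_w le_rfl).mul v h2
  have hN : v.ge (x₁ * x₂ - b) (v.w x₁ + v.w b) := h12.sub v (hbge.mono v (by linarith))
  have hP := v.prod_ge hD h.hP hN
  have hm1 : v.ge (x₁ + x₂) (v.w x₁) :=
    (v.ge_of_w le_rfl).add v (h2.mono v (by linarith))
  have hm2 : v.ge (x₁ * x₂ + b) (v.w x₁ + v.w b) := h12.add v (hbge.mono v (by linarith))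
  have hm3 : v.ge (c * x₁ * x₂) (v.w x₁ + v.w b) :=
    ge_c_mul v hd (v.ge_of_w le_rfl) h2
  have hM : v.ge (2 * ((x₁ + x₂) * (x₁ * x₂ + b)) + c * x₁ * x₂)
      (v.w x₁ + (v.w x₁ + v.w b)) :=
    (ge_two_mul v hd (hm1.mul v hm2)).add v (hm3.mono v (by linarith))
  have hS := sumG_ge v hD h.hS hM
  refine v.roots_ge (hP.mono v ?_) (hS.mono v ?_)
  · rw [hDw]; linarith
  · rw [hDw]; linarith

/-- Case (M,H). -/
lemma caseG_MH (hd : NodeDataG v c b) (h : ChordG c b x₁ x₂ zp zm)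
    (h1 : x₁ ≠ 0) (h1w : 0 < v.w x₁) (h1w' : v.w x₁ < v.w b) (h2 : v.ge x₂ (v.w b)) :
    (zp ≠ 0 ∧ v.w zp = v.w b - v.w x₁) ∧ (zm ≠ 0 ∧ v.w zm = v.w b - v.w x₁) := by
  have hD := h.hD
  have hbge : v.ge b (v.w b) := Or.inr le_rfl
  have hη := hd.w_b
  obtain ⟨_, hDw⟩ := v.w_sub_of_lt h1 h2 h1w'
  have h12 : v.ge (x₁ * x₂) (v.w x₁ + v.w b) := (v.ge_of_w le_rfl).mul v h2
  obtain ⟨hN0, hNw⟩ := v.w_sub_of_lt' hd.b_ne h12 (by linarith)
  obtain ⟨hP0, hPw⟩ := v.prod_exact hD h.hP hN0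
  have hm1 : v.ge (x₁ + x₂) (v.w x₁) :=
    (v.ge_of_w le_rfl).add v (h2.mono v (by linarith))
  have hm2 : v.ge (x₁ * x₂ + b) (v.w b) := (h12.mono v (by linarith)).add v hbge
  have hm3 : v.ge (c * x₁ * x₂) (v.w x₁ + v.w b) :=
    ge_c_mul v hd (v.ge_of_w le_rfl) h2
  have hM : v.ge (2 * ((x₁ + x₂) * (x₁ * x₂ + b)) + c * x₁ * x₂)
      (v.w x₁ + v.w b) :=
    (ge_two_mul v hd (hm1.mul v hm2)).add v hm3
  have hS := sumG_ge v hD h.hS hM
  refine v.roots_eq hP0 ?_ (hS.mono v ?_)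
  · rw [hPw, hNw, hDw]; ring
  · rw [hDw]; linarith

/-- Case (H,H). -/
lemma caseG_HH (hd : NodeDataG v c b) (h : ChordG c b x₁ x₂ zp zm)
    (h1 : v.ge x₁ (v.w b)) (h2 : v.ge x₂ (v.w b)) :
    (zp ≠ 0 ∧ v.w zp ≤ 0) ∧ (zm ≠ 0 ∧ v.w zm ≤ 0) := by
  have hD := h.hD
  have hbge : v.ge b (v.w b) := Or.inr le_rfl
  have hη := hd.w_b
  have hDw : v.w b ≤ v.w (x₁ - x₂) := (h1.sub v h2).w_le v hD
  have h12 : v.ge (x₁ * x₂) (v.w b + v.w b) := h1.mul v h2
  obtain ⟨hN0, hNw⟩ := v.w_sub_of_lt' hd.b_ne h12 (by linarith)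
  obtain ⟨hP0, hPw⟩ := v.prod_exact hD h.hP hN0
  have hm1 : v.ge (x₁ + x₂) (v.w b) := h1.add v h2
  have hm2 : v.ge (x₁ * x₂ + b) (v.w b) := (h12.mono v (by linarith)).add v hbge
  have hm3 : v.ge (c * x₁ * x₂) (v.w b + v.w b) := ge_c_mul v hd h1 h2
  have hM : v.ge (2 * ((x₁ + x₂) * (x₁ * x₂ + b)) + c * x₁ * x₂)
      (v.w b + v.w b) :=
    (ge_two_mul v hd (hm1.mul v hm2)).add v hm3
  have hS := sumG_ge v hD h.hS hM
  refine v.roots_le_zero (t := v.w b - v.w (x₁ - x₂)) hP0 ?_ (by linarith) (hS.mono v ?_)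
  · rw [hPw, hNw]; ring
  · linarith

end cases

section alpha

variable (v : AddVal K) {c b : K}

lemma alphaXG_of_E (hd : NodeDataG v c b) {x : K} (hx : x ≠ 0) (hw : v.w x ≤ 0) :
    alphaX v b x = 0 := by
  rw [alphaX_of_ne v hx]
  have := hd.w_b
  rw [min_eq_left (by linarith), max_eq_left hw]

lemma alphaXG_of_H (hd : NodeDataG v c b) {x : K} (hx : v.ge x (v.w b)) :
    alphaX v b x = v.w b := by
  by_cases h0 : x = 0
  · subst h0; exact alphaX_zero v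
  · rw [alphaX_of_ne v h0, min_eq_right (hx.w_le v h0), max_eq_right hd.w_b.le]

lemma alphaXG_nonneg (hd : NodeDataG v c b) (x : K) : 0 ≤ alphaX v b x := by
  by_cases h0 : x = 0
  · subst h0; rw [alphaX_zero]; exact hd.w_b.le
  · rw [alphaX_of_ne v h0]; exact le_max_left _ _

lemma alphaXG_le (hd : NodeDataG v c b) (x : K) : alphaX v b x ≤ v.w b := by
  by_cases h0 : x = 0
  · subst h0; rw [alphaX_zero]
  · rw [alphaX_of_ne v h0]; exact max_le hd.w_b.le (min_le_right _ _)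

end alpha

section casesMM

variable (v : AddVal K) {c b x₁ x₂ zp zm : K}

/-- Case (M,M) with `w x₁ < w x₂`. -/
lemma caseG_MM_lt (hd : NodeDataG v c b) (h : ChordG c b x₁ x₂ zp zm)
    (h1 : x₁ ≠ 0) (h1w : 0 < v.w x₁) (h2 : x₂ ≠ 0) (h2w' : v.w x₂ < v.w b)
    (hlt : v.w x₁ < v.w x₂) :
    (alphaX v b zp = Fp (v.w b) (v.w x₁) (v.w x₂) ∧ alphaX v b zm = v.w x₂ - v.w x₁) ∨
    (alphaX v b zp = v.w x₂ - v.w x₁ ∧ alphaX v b zm = Fp (v.w b) (v.w x₁) (v.w x₂)) := by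
  have hD := h.hD
  have h12 : x₁ * x₂ ≠ 0 := mul_ne_zero h1 h2
  have w12 := v.w_mul h1 h2
  have hbge : v.ge b (v.w b) := Or.inr le_rfl
  have hη := hd.w_b
  obtain ⟨_, hDw⟩ := v.w_sub_of_lt h1 (v.ge_of_w (le_refl (v.w x₂))) hlt
  -- M
  have hm1 : v.ge (x₁ + x₂) (v.w x₁) :=
    (v.ge_of_w le_rfl).add v (v.ge_of_w hlt.le)
  have hm2 : v.ge (x₁ * x₂ + b) (min (v.w x₁ + v.w x₂) (v.w b)) :=
    (v.ge_of_w (by rw [w12]; exact min_le_left _ _)).add v (hbge.mono v (min_le_right _ _))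
  obtain ⟨hm3, hm3w⟩ := w_c_mul v hd h1 h2
  have hmlt : v.w x₁ + v.w x₂ < v.w x₁ + min (v.w x₁ + v.w x₂) (v.w b) := by
    have : v.w x₂ < min (v.w x₁ + v.w x₂) (v.w b) := lt_min (by linarith) h2w'
    linarith
  obtain ⟨hM0, hMw⟩ := v.w_add_of_lt' hm3 (ge_two_mul v hd (hm1.mul v hm2))
    (by rw [hm3w]; exact hmlt)
  obtain ⟨hS0, hSw⟩ := sumG_exact v hD h.hS hM0
  rw [hMw, hm3w, hDw] at hSw
  have hSw' : v.w (zp + zm) = v.w x₂ - v.w x₁ := by rw [hSw]; ring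
  -- N
  rcases lt_trichotomy (v.w x₁ + v.w x₂) (v.w b) with hc | hc | hc
  · obtain ⟨hN0, hNw⟩ := v.w_sub_of_lt h12 hbge (by rw [w12]; exact hc)
    obtain ⟨hP0, hPw⟩ := v.prod_exact hD h.hP hN0
    have hFp : Fp (v.w b) (v.w x₁) (v.w x₂) = v.w x₁ + v.w x₂ := by
      unfold Fp; exact min_eq_left (by linarith)
    rw [hFp]
    rcases v.roots_split_exact (r := v.w x₁ + v.w x₂) hS0 hSw' (by linarith) hP0
        (by rw [hPw, hNw, w12, hDw]; ring) with ⟨a1, a2, a3, a4⟩ | ⟨a1, a2, a3, a4⟩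
    · right
      exact ⟨by rw [alphaX_of_M v a1 (by linarith) (by linarith), a2],
        by rw [alphaX_of_M v a3 (by linarith) (by linarith), a4]⟩
    · left
      exact ⟨by rw [alphaX_of_M v a3 (by linarith) (by linarith), a4],
        by rw [alphaX_of_M v a1 (by linarith) (by linarith), a2]⟩
  · -- w x₁ + w x₂ = η
    have hN : v.ge (x₁ * x₂ - b) (v.w b) := (v.ge_of_w (by rw [w12, hc])).sub v hbge
    have hP := v.prod_ge hD h.hP hN
    have hFp : Fp (v.w b) (v.w x₁) (v.w x₂) = v.w b := by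
      unfold Fp; rw [hc]; exact min_eq_left (by linarith)
    rw [hFp]
    rcases v.roots_split (r := v.w b) hS0 hSw' (by linarith)
        (hP.mono v (by rw [hDw]; linarith)) with ⟨a1, a2, a3⟩ | ⟨a1, a2, a3⟩
    · right
      exact ⟨by rw [alphaX_of_M v a1 (by linarith) (by linarith), a2], alphaXG_of_H v hd a3⟩
    · left
      exact ⟨alphaXG_of_H v hd a3, by rw [alphaX_of_M v a1 (by linarith) (by linarith), a2]⟩
  · obtain ⟨hN0, hNw⟩ := v.w_sub_of_lt' hd.b_ne (v.ge_of_w (le_of_eq w12.symm)) hc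
    obtain ⟨hP0, hPw⟩ := v.prod_exact hD h.hP hN0
    have hFp : Fp (v.w b) (v.w x₁) (v.w x₂) = 2 * v.w b - (v.w x₁ + v.w x₂) := by
      unfold Fp; exact min_eq_right (by linarith)
    rw [hFp]
    rcases v.roots_split_exact (r := 2 * v.w b - (v.w x₁ + v.w x₂)) hS0 hSw' (by linarith) hP0
        (by rw [hPw, hNw, hDw]; ring) with ⟨a1, a2, a3, a4⟩ | ⟨a1, a2, a3, a4⟩
    · right
      exact ⟨by rw [alphaX_of_M v a1 (by linarith) (by linarith), a2],
        by rw [alphaX_of_M v a3 (by linarith) (by linarith), a4]⟩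
    · left
      exact ⟨by rw [alphaX_of_M v a3 (by linarith) (by linarith), a4],
        by rw [alphaX_of_M v a1 (by linarith) (by linarith), a2]⟩

/-- Case (M,M) with `w x₁ = w x₂`. -/
lemma caseG_MM_eq (hd : NodeDataG v c b) (h : ChordG c b x₁ x₂ zp zm)
    (h1 : x₁ ≠ 0) (h1w : 0 < v.w x₁) (h1w' : v.w x₁ < v.w b) (h2 : x₂ ≠ 0)
    (heq : v.w x₂ = v.w x₁) :
    (alphaX v b zp = Fp (v.w b) (v.w x₁) (v.w x₁) ∧ alphaX v b zm = 0) ∨
    (alphaX v b zp = 0 ∧ alphaX v b zm = Fp (v.w b) (v.w x₁) (v.w x₁)) := by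
  have hD := h.hD
  have h12 : x₁ * x₂ ≠ 0 := mul_ne_zero h1 h2
  have w12 := v.w_mul h1 h2
  rw [heq] at w12
  have hbge : v.ge b (v.w b) := Or.inr le_rfl
  have hη := hd.w_b
  have hDw : v.w x₁ ≤ v.w (x₁ - x₂) :=
    ((v.ge_of_w le_rfl).sub v (v.ge_of_w heq.ge)).w_le v hD
  -- M
  have hm1 : v.ge (x₁ + x₂) (v.w x₁) :=
    (v.ge_of_w le_rfl).add v (v.ge_of_w heq.ge)
  have hm2 : v.ge (x₁ * x₂ + b) (min (v.w x₁ + v.w x₁) (v.w b)) :=
    (v.ge_of_w (by rw [w12]; exact min_le_left _ _)).add v (hbge.mono v (min_le_right _ _))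
  obtain ⟨hm3, hm3w⟩ := w_c_mul v hd h1 h2
  rw [heq] at hm3w
  have hmlt : v.w x₁ + v.w x₁ < v.w x₁ + min (v.w x₁ + v.w x₁) (v.w b) := by
    have : v.w x₁ < min (v.w x₁ + v.w x₁) (v.w b) := lt_min (by linarith) h1w'
    linarith
  obtain ⟨hM0, hMw⟩ := v.w_add_of_lt' hm3 (ge_two_mul v hd (hm1.mul v hm2))
    (by rw [hm3w]; exact hmlt)
  obtain ⟨hS0, hSw⟩ := sumG_exact v hD h.hS hM0
  rw [hMw, hm3w] at hSw
  have hSw' : v.w (zp + zm) = 2 * v.w x₁ - 2 * v.w (x₁ - x₂) := by rw [hSw]; ring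
  rcases lt_trichotomy (v.w x₁ + v.w x₁) (v.w b) with hc | hc | hc
  · obtain ⟨hN0, hNw⟩ := v.w_sub_of_lt h12 hbge (by rw [w12]; exact hc)
    obtain ⟨hP0, hPw⟩ := v.prod_exact hD h.hP hN0
    have hFp : Fp (v.w b) (v.w x₁) (v.w x₁) = v.w x₁ + v.w x₁ := by
      unfold Fp; exact min_eq_left (by linarith)
    rw [hFp]
    rcases v.roots_split_exact (r := v.w x₁ + v.w x₁) hS0 hSw' (by linarith) hP0
        (by rw [hPw, hNw, w12]; ring) with ⟨a1, a2, a3, a4⟩ | ⟨a1, a2, a3, a4⟩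
    · right
      exact ⟨alphaXG_of_E v hd a1 (by linarith),
        by rw [alphaX_of_M v a3 (by linarith) (by linarith), a4]⟩
    · left
      exact ⟨by rw [alphaX_of_M v a3 (by linarith) (by linarith), a4],
        alphaXG_of_E v hd a1 (by linarith)⟩
  · have hN : v.ge (x₁ * x₂ - b) (v.w b) := (v.ge_of_w (by rw [w12, hc])).sub v hbge
    have hP := v.prod_ge hD h.hP hN
    have hFp : Fp (v.w b) (v.w x₁) (v.w x₁) = v.w b := by
      unfold Fp; rw [hc]; exact min_eq_left (by linarith)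
    rw [hFp]
    rcases v.roots_split (r := v.w b) hS0 hSw' (by linarith)
        (hP.mono v (by linarith)) with ⟨a1, a2, a3⟩ | ⟨a1, a2, a3⟩
    · right
      exact ⟨alphaXG_of_E v hd a1 (by linarith), alphaXG_of_H v hd a3⟩
    · left
      exact ⟨alphaXG_of_H v hd a3, alphaXG_of_E v hd a1 (by linarith)⟩
  · obtain ⟨hN0, hNw⟩ := v.w_sub_of_lt' hd.b_ne (v.ge_of_w (le_of_eq w12.symm)) hc
    obtain ⟨hP0, hPw⟩ := v.prod_exact hD h.hP hN0
    have hFp : Fp (v.w b) (v.w x₁) (v.w x₁) = 2 * v.w b - (v.w x₁ + v.w x₁) := by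
      unfold Fp; exact min_eq_right (by linarith)
    rw [hFp]
    rcases v.roots_split_exact (r := 2 * v.w b - (v.w x₁ + v.w x₁)) hS0 hSw' (by linarith) hP0
        (by rw [hPw, hNw]; ring) with ⟨a1, a2, a3, a4⟩ | ⟨a1, a2, a3, a4⟩
    · right
      exact ⟨alphaXG_of_E v hd a1 (by linarith),
        by rw [alphaX_of_M v a3 (by linarith) (by linarith), a4]⟩
    · left
      exact ⟨by rw [alphaX_of_M v a3 (by linarith) (by linarith), a4],
        alphaXG_of_E v hd a1 (by linarith)⟩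

end casesMM

section chord

variable (v : AddVal K) {c b x₁ x₂ zp zm : K}

/-- The parallelogram law for a generic chord, in terms of the clipped valuation. -/
theorem chordG_alpha (hd : NodeDataG v c b) (h : ChordG c b x₁ x₂ zp zm) :
    (alphaX v b zp = Fp (v.w b) (alphaX v b x₁) (alphaX v b x₂) ∧
      alphaX v b zm = Fm (alphaX v b x₁) (alphaX v b x₂)) ∨
    (alphaX v b zp = Fm (alphaX v b x₁) (alphaX v b x₂) ∧
      alphaX v b zm = Fp (v.w b) (alphaX v b x₁) (alphaX v b x₂)) := by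
  have hη := hd.w_b
  rcases trichotomy v (b := b) x₁ with ⟨e1, e1w⟩ | ⟨m1, m1w, m1w'⟩ | g1 <;>
  rcases trichotomy v (b := b) x₂ with ⟨e2, e2w⟩ | ⟨m2, m2w, m2w'⟩ | g2
  · -- E E
    obtain ⟨⟨p0, pw⟩, ⟨q0, qw⟩⟩ := caseG_EE v hd h e1 e1w e2 e2w
    rw [alphaXG_of_E v hd e1 e1w, alphaXG_of_E v hd e2 e2w, alphaXG_of_E v hd p0 pw,
      alphaXG_of_E v hd q0 qw]
    left
    constructor
    · unfold Fp; rw [min_eq_left (by linarith)]; ring
    · unfold Fm; simp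
  · -- E M
    obtain ⟨⟨p0, pw⟩, ⟨q0, qw⟩⟩ := caseG_EM v hd h e1 e1w m2 m2w m2w'
    rw [alphaXG_of_E v hd e1 e1w, alphaX_of_M v m2 m2w.le m2w'.le,
      alphaX_of_M v p0 (by linarith) (by linarith), alphaX_of_M v q0 (by linarith) (by linarith),
      pw, qw]
    left
    constructor
    · unfold Fp; rw [min_eq_left (by linarith)]; ring
    · unfold Fm; rw [zero_sub, abs_neg, abs_of_pos m2w]
  · -- E H
    obtain ⟨p, q⟩ := caseG_EH v hd h e1 e1w g2
    rw [alphaXG_of_E v hd e1 e1w, alphaXG_of_H v hd g2, alphaXG_of_H v hd p, alphaXG_of_H v hd q]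
    left
    constructor
    · unfold Fp; rw [min_eq_left (by linarith)]; ring
    · unfold Fm; rw [zero_sub, abs_neg, abs_of_pos hη]
  · -- M E
    obtain ⟨⟨p0, pw⟩, ⟨q0, qw⟩⟩ := caseG_EM v hd h.symm e2 e2w m1 m1w m1w'
    rw [alphaXG_of_E v hd e2 e2w, alphaX_of_M v m1 m1w.le m1w'.le,
      alphaX_of_M v p0 (by linarith) (by linarith), alphaX_of_M v q0 (by linarith) (by linarith),
      pw, qw]
    left
    constructor
    · unfold Fp; rw [min_eq_left (by linarith)]; ring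
    · unfold Fm; rw [sub_zero, abs_of_pos m1w]
  · -- M M
    rw [alphaX_of_M v m1 m1w.le m1w'.le, alphaX_of_M v m2 m2w.le m2w'.le]
    rcases lt_trichotomy (v.w x₁) (v.w x₂) with hc | hc | hc
    · have hFm : Fm (v.w x₁) (v.w x₂) = v.w x₂ - v.w x₁ := by
        unfold Fm; rw [abs_sub_comm, abs_of_pos (by linarith)]
      rw [hFm]
      exact caseG_MM_lt v hd h m1 m1w m2 m2w' hc
    · have hFm : Fm (v.w x₁) (v.w x₂) = 0 := by
        unfold Fm; rw [hc, sub_self, abs_zero]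
      rw [hFm, ← hc]
      exact caseG_MM_eq v hd h m1 m1w m1w' m2 hc.symm
    · have hFm : Fm (v.w x₁) (v.w x₂) = v.w x₁ - v.w x₂ := by
        unfold Fm; rw [abs_of_pos (by linarith)]
      rw [hFm, Fp_comm]
      exact caseG_MM_lt v hd h.symm m2 m2w m1 m1w' hc
  · -- M H
    obtain ⟨⟨p0, pw⟩, ⟨q0, qw⟩⟩ := caseG_MH v hd h m1 m1w m1w' g2
    rw [alphaX_of_M v m1 m1w.le m1w'.le, alphaXG_of_H v hd g2,
      alphaX_of_M v p0 (by linarith) (by linarith), alphaX_of_M v q0 (by linarith) (by linarith),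
      pw, qw]
    left
    constructor
    · unfold Fp; rw [min_eq_right (by linarith)]; ring
    · unfold Fm; rw [abs_sub_comm, abs_of_pos (by linarith)]
  · -- H E
    obtain ⟨p, q⟩ := caseG_EH v hd h.symm e2 e2w g1
    rw [alphaXG_of_E v hd e2 e2w, alphaXG_of_H v hd g1, alphaXG_of_H v hd p, alphaXG_of_H v hd q]
    left
    constructor
    · unfold Fp; rw [min_eq_left (by linarith)]; ring
    · unfold Fm; rw [sub_zero, abs_of_pos hη]
  · -- H M
    obtain ⟨⟨p0, pw⟩, ⟨q0, qw⟩⟩ := caseG_MH v hd h.symm m2 m2w m2w' g1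
    rw [alphaX_of_M v m2 m2w.le m2w'.le, alphaXG_of_H v hd g1,
      alphaX_of_M v p0 (by linarith) (by linarith), alphaX_of_M v q0 (by linarith) (by linarith),
      pw, qw]
    left
    constructor
    · unfold Fp; rw [min_eq_right (by linarith)]; ring
    · unfold Fm; rw [abs_of_pos (by linarith)]
  · -- H H
    obtain ⟨⟨p0, pw⟩, ⟨q0, qw⟩⟩ := caseG_HH v hd h g1 g2
    rw [alphaXG_of_H v hd g1, alphaXG_of_H v hd g2, alphaXG_of_E v hd p0 pw,
      alphaXG_of_E v hd q0 qw]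
    left
    constructor
    · unfold Fp; rw [min_eq_right (by linarith)]; ring
    · unfold Fm; simp

end chord

section doubling

variable (v : AddVal K) {c b x z : K}

/-- Doubling formula in terms of the clipped valuation: the denominator of the duplication
formula is `Ψ₂²(x) = 4x³ + c x² + 4 b x`, the numerator is `(x² - b)²`. -/
theorem dblG_alpha (hd : NodeDataG v c b) (hden : 4 * x ^ 3 + c * x ^ 2 + 4 * b * x ≠ 0)
    (hz : z * (4 * x ^ 3 + c * x ^ 2 + 4 * b * x) = (x ^ 2 - b) ^ 2) :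
    alphaX v b z = Fp (v.w b) (alphaX v b x) (alphaX v b x) := by
  have hη := hd.w_b
  have hbge : v.ge b (v.w b) := Or.inr le_rfl
  have hx : x ≠ 0 := by
    rintro rfl
    apply hden
    ring
  have hxx : x ^ 2 ≠ 0 := pow_ne_zero 2 hx
  have wxx : v.w (x ^ 2) = 2 * v.w x := v.w_sq hx
  -- Q
  have hQ : 4 * x ^ 3 + c * x ^ 2 + 4 * b * x = x * (4 * x ^ 2 + c * x + 4 * b) := by ring
  have hQ0 : 4 * x ^ 2 + c * x + 4 * b ≠ 0 := by
    intro h0
    rw [hQ, h0, mul_zero] at hden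
    exact hden rfl
  have wden : v.w (4 * x ^ 3 + c * x ^ 2 + 4 * b * x) = v.w x + v.w (4 * x ^ 2 + c * x + 4 * b) := by
    rw [hQ, v.w_mul hx hQ0]
  have hcx : c * x ≠ 0 := mul_ne_zero hd.c_ne hx
  have wcx : v.w (c * x) = v.w x := by rw [v.w_mul hd.c_ne hx, hd.w_c, zero_add]
  have h4xx : v.ge (4 * x ^ 2) (2 * v.w x) := ge_four_mul v hd (v.ge_of_w wxx.ge)
  have h4b : v.ge (4 * b) (v.w b) := ge_four_mul v hd hbge
  -- exact transfer
  have zexact : ∀ hN : x ^ 2 - b ≠ 0, z ≠ 0 ∧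
      v.w z = 2 * v.w (x ^ 2 - b) - (v.w x + v.w (4 * x ^ 2 + c * x + 4 * b)) := by
    intro hN
    have hz0 : z ≠ 0 := by
      rintro rfl
      rw [zero_mul] at hz
      exact pow_ne_zero 2 hN hz.symm
    refine ⟨hz0, ?_⟩
    have e := congrArg v.w hz
    rw [v.w_mul hz0 hden, wden, v.w_sq hN] at e
    linarith
  rcases trichotomy v (b := b) x with ⟨_, e1w⟩ | ⟨_, m1w, m1w'⟩ | g1
  · -- E
    rw [alphaXG_of_E v hd hx e1w]
    obtain ⟨hN0, hNw⟩ := v.w_sub_of_lt hxx hbge (by rw [wxx]; linarith)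
    obtain ⟨hz0, hzw⟩ := zexact hN0
    have hQge : v.ge (4 * x ^ 2 + c * x + 4 * b) (2 * v.w x) :=
      (h4xx.add v (v.ge_of_w (by rw [wcx]; linarith))).add v
        (h4b.mono v (by linarith))
    have := hQge.w_le v hQ0
    rw [alphaXG_of_E v hd hz0 (by rw [hzw, hNw, wxx]; linarith)]
    unfold Fp; rw [min_eq_left (by linarith)]; ring
  · -- M
    rw [alphaX_of_M v hx m1w.le m1w'.le]
    have hQw : v.w (4 * x ^ 2 + c * x + 4 * b) = v.w x := by
      obtain ⟨h2, h2w⟩ := v.w_add_of_lt' hcx h4xx (by rw [wcx]; linarith)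
      obtain ⟨_, h3w⟩ := v.w_add_of_lt h2 h4b (by rw [h2w, wcx]; exact m1w')
      rw [h3w, h2w, wcx]
    rcases lt_trichotomy (v.w x + v.w x) (v.w b) with hc | hc | hc
    · obtain ⟨hN0, hNw⟩ := v.w_sub_of_lt hxx hbge (by rw [wxx]; linarith)
      obtain ⟨hz0, hzw⟩ := zexact hN0
      rw [alphaX_of_M v hz0 (by rw [hzw, hNw, wxx, hQw]; linarith)
        (by rw [hzw, hNw, wxx, hQw]; linarith), hzw, hNw, wxx, hQw]
      unfold Fp; rw [min_eq_left (by linarith)]; ring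
    · have hN : v.ge (x ^ 2 - b) (v.w b) := (v.ge_of_w (by rw [wxx]; linarith)).sub v hbge
      have hzge : v.ge z (v.w b) := by
        by_cases hN0 : x ^ 2 - b = 0
        · left
          rw [hN0] at hz
          have : z * (4 * x ^ 3 + c * x ^ 2 + 4 * b * x) = 0 := by rw [hz]; ring
          rcases mul_eq_zero.mp this with h' | h'
          · exact h'
          · exact absurd h' hden
        · obtain ⟨hz0, hzw⟩ := zexact hN0
          have := hN.w_le v hN0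
          exact Or.inr (by rw [hzw, hQw]; linarith)
      rw [alphaXG_of_H v hd hzge]
      unfold Fp; rw [hc, min_eq_left (by linarith)]
    · obtain ⟨hN0, hNw⟩ := v.w_sub_of_lt' hd.b_ne (v.ge_of_w (le_of_eq wxx.symm)) (by linarith)
      obtain ⟨hz0, hzw⟩ := zexact hN0
      rw [alphaX_of_M v hz0 (by rw [hzw, hNw, hQw]; linarith)
        (by rw [hzw, hNw, hQw]; linarith), hzw, hNw, hQw]
      unfold Fp; rw [min_eq_right (by linarith)]
  · -- H
    rw [alphaXG_of_H v hd g1]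
    have hxw := g1.w_le v hx
    obtain ⟨hN0, hNw⟩ := v.w_sub_of_lt' hd.b_ne (v.ge_of_w (le_of_eq wxx.symm)) (by linarith)
    obtain ⟨hz0, hzw⟩ := zexact hN0
    have hQge : v.ge (4 * x ^ 2 + c * x + 4 * b) (v.w b) :=
      ((h4xx.mono v (by linarith)).add v (v.ge_of_w (by rw [wcx]; linarith))).add v h4b
    have := hQge.w_le v hQ0
    rw [alphaXG_of_E v hd hz0 (by rw [hzw, hNw]; linarith)]
    unfold Fp; rw [min_eq_right (by linarith)]; ring

/-- At a `2`-torsion point (`Ψ₂²(x) = 0`) the clipped valuation is `0` or `η`. -/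
theorem FpG_two_torsion (hd : NodeDataG v c b) (heq : 4 * x ^ 3 + c * x ^ 2 + 4 * b * x = 0) :
    Fp (v.w b) (alphaX v b x) (alphaX v b x) = 0 := by
  have hη := hd.w_b
  have hbge : v.ge b (v.w b) := Or.inr le_rfl
  by_cases hx : x = 0
  · subst hx
    rw [alphaX_zero]
    unfold Fp; rw [min_eq_right (by linarith)]; ring
  · have hQ : 4 * x ^ 2 + c * x + 4 * b = 0 := by
      have : x * (4 * x ^ 2 + c * x + 4 * b) = 0 := by rw [← heq]; ring
      rcases mul_eq_zero.mp this with h' | h'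
      · exact absurd h' hx
      · exact h'
    have wxx : v.w (x ^ 2) = 2 * v.w x := v.w_sq hx
    have hcx : c * x ≠ 0 := mul_ne_zero hd.c_ne hx
    have wcx : v.w (c * x) = v.w x := by rw [v.w_mul hd.c_ne hx, hd.w_c, zero_add]
    have h4xx : v.ge (4 * x ^ 2) (2 * v.w x) := ge_four_mul v hd (v.ge_of_w wxx.ge)
    have h4b : v.ge (4 * b) (v.w b) := ge_four_mul v hd hbge
    rcases trichotomy v (b := b) x with ⟨_, e1w⟩ | ⟨_, m1w, m1w'⟩ | g1
    · rw [alphaXG_of_E v hd hx e1w]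
      unfold Fp; rw [min_eq_left (by linarith)]; ring
    · exfalso
      obtain ⟨h2, h2w⟩ := v.w_add_of_lt' hcx h4xx (by rw [wcx]; linarith)
      obtain ⟨h3, _⟩ := v.w_add_of_lt h2 h4b (by rw [h2w, wcx]; exact m1w')
      exact h3 hQ
    · rw [alphaXG_of_H v hd g1]
      unfold Fp; rw [min_eq_right (by linarith)]; ring

end doubling

end Fermat.Agent.H55
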