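import Mathlib
import Fermat.Agent.H55.NodeComponent
import Fermat.Agent.H3.FreyReduction
import Fermat.Agent.H26.KernelReduction
import Fermat.Agent.H8.ReductionF2

/-!
# The Frey curve has no rational point of order `p` (helper55, S13 / WP5, step (4))

The Frey model `y² + x y = x³ + a₂ x² + a₄ x` has a node at `2` with
`η = v₂(a₄) = p v₂(b) - 4`, which is prime to `p`.  The component law of
`Fermat.Agent.H55.NodeComponent` (valid in residue characteristic `2`) shows that a rational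
point `Q` killed by `p` has nonsingular reduction at `2`; then `x(Q)`, `x(2Q)` are `2`-adic units
and the two possible residue points `(1, 0)`, `(1, 1)` force `Q` or `3Q` into the kernel of
reduction, which has no `p`-torsion.

Main result: `Fermat.Agent.H55.frey_rational_torsion_eq_zero`.
-/

set_option autoImplicit false

namespace Fermat.Agent.H55

open Fermat.Agent.H71 Fermat.Agent.H38 Fermat.Agent.H70
open WeierstrassCurve WeierstrassCurve.Affine

/-- The `2`-adic additive valuation on `ℚ`. -/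
noncomputable def twoAdic : AddVal ℚ where
  w x := (padicValRat 2 x : ℝ)
  map_mul' x y hx hy := by rw [padicValRat.mul hx hy]; push_cast; ring
  map_add' x y hx hy hxy := by exact_mod_cast padicValRat.min_le_padicValRat_add hxy

lemma twoAdic_w (x : ℚ) : twoAdic.w x = (padicValRat 2 x : ℝ) := rfl

/-- The `2`-adic valuation of Mathlib. -/
noncomputable abbrev v2 : Valuation ℚ (WithZero (Multiplicative ℤ)) := Rat.padicValuation 2

lemma v2_of_ne {x : ℚ} (hx : x ≠ 0) : v2 x = WithZero.exp (-padicValRat 2 x) := by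
  simp [v2, Rat.padicValuation, hx]

lemma v2_le_one_iff {x : ℚ} (hx : x ≠ 0) : v2 x ≤ 1 ↔ 0 ≤ padicValRat 2 x := by
  rw [v2_of_ne hx, ← WithZero.exp_zero, WithZero.exp_le_exp]
  omega

lemma v2_lt_one_iff {x : ℚ} (hx : x ≠ 0) : v2 x < 1 ↔ 0 < padicValRat 2 x := by
  rw [v2_of_ne hx, ← WithZero.exp_zero, WithZero.exp_lt_exp]
  omega

lemma one_lt_v2_iff {x : ℚ} (hx : x ≠ 0) : 1 < v2 x ↔ padicValRat 2 x < 0 := by
  rw [v2_of_ne hx, ← WithZero.exp_zero, WithZero.exp_lt_exp]
  omega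

lemma v2_eq_one_iff {x : ℚ} (hx : x ≠ 0) : v2 x = 1 ↔ padicValRat 2 x = 0 := by
  constructor
  · intro h
    have h1 := (v2_le_one_iff hx).mp h.le
    have h2 := mt (v2_lt_one_iff hx).mpr (by rw [h]; exact lt_irrefl _)
    omega
  · intro h
    refine le_antisymm ((v2_le_one_iff hx).mpr (by omega)) ?_
    rw [← not_lt, v2_lt_one_iff hx]
    omega

lemma v2_intCast_le_one (n : ℤ) : v2 (n : ℚ) ≤ 1 := by
  rw [Rat.padicValuation_cast]
  exact Int.padicValuation_le_one 2 n

lemma v2_intCast_lt_one_iff (n : ℤ) : v2 (n : ℚ) < 1 ↔ (2 : ℤ) ∣ n := by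
  rw [Rat.padicValuation_cast]
  exact_mod_cast Int.padicValuation_lt_one_iff (p := 2) (x := n)

lemma v2_intCast_eq_one_iff (n : ℤ) : v2 (n : ℚ) = 1 ↔ ¬ (2 : ℤ) ∣ n := by
  rw [Rat.padicValuation_cast]
  exact_mod_cast Int.padicValuation_eq_one_iff (p := 2) (x := n)

/-- The residue field of `ℤ_(2)` is `𝔽₂`. -/
lemma v2_residue (y : ℚ) (hy : v2 y ≤ 1) : v2 y < 1 ∨ v2 (y - 1) < 1 := by
  have hden : ¬ (2 : ℤ) ∣ (y.den : ℤ) := by
    have := Rat.padicValuation_le_one_iff.mp hy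
    exact_mod_cast this
  have hd1 : v2 ((y.den : ℤ) : ℚ) = 1 := (v2_intCast_eq_one_iff _).mpr hden
  have hd0 : ((y.den : ℤ) : ℚ) ≠ 0 := by exact_mod_cast y.den_ne_zero
  have hy' : y = (y.num : ℚ) / ((y.den : ℤ) : ℚ) := by
    rw [Int.cast_natCast]; exact (Rat.num_div_den y).symm
  by_cases hnum : (2 : ℤ) ∣ y.num
  · left
    rw [hy', map_div₀, hd1, div_one]
    exact (v2_intCast_lt_one_iff _).mpr hnum
  · right
    have h1 : y - 1 = ((y.num - (y.den : ℤ) : ℤ) : ℚ) / ((y.den : ℤ) : ℚ) := by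
      rw [Int.cast_sub, sub_div, div_self hd0, ← hy']
    rw [h1, map_div₀, hd1, div_one]
    refine (v2_intCast_lt_one_iff _).mpr ?_
    omega

section frey

variable (P : FreyPackage)

lemma frey_two_dvd_b : (2 : ℤ) ∣ P.b := (ZMod.intCast_zmod_eq_zero_iff_dvd P.b 2).1 P.hb2

lemma frey_not_two_dvd_a : ¬ (2 : ℤ) ∣ P.a := by
  intro h
  obtain ⟨k, hk⟩ := h
  have h4 := P.ha4
  rw [hk] at h4
  push_cast at h4
  have : ∀ z : ZMod 4, (2 : ZMod 4) * z ≠ 3 := by decide
  exact this _ h4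

lemma frey_a₁ : P.freyCurve.a₁ = 1 := rfl
lemma frey_a₃ : P.freyCurve.a₃ = 0 := rfl
lemma frey_a₆ : P.freyCurve.a₆ = 0 := rfl
lemma frey_a₂ : P.freyCurve.a₂ = ((P.b : ℚ) ^ P.p - 1 - (P.a : ℚ) ^ P.p) / 4 := rfl
lemma frey_a₄ : P.freyCurve.a₄ = -((P.a : ℚ) ^ P.p) * ((P.b : ℚ) ^ P.p) / 16 := rfl

lemma frey_a₂_int : P.freyCurve.a₂ = ((P.freyCurveInt.a₂ : ℤ) : ℚ) := by
  rw [← Fermat.Agent.H3.freyCurveInt_map P]; rfl

lemma frey_a₄_int : P.freyCurve.a₄ = ((P.freyCurveInt.a₄ : ℤ) : ℚ) := by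
  rw [← Fermat.Agent.H3.freyCurveInt_map P]; rfl

lemma frey_isNodeModel : IsNodeModel P.freyCurve := ⟨rfl, rfl⟩

lemma frey_b₂ : P.freyCurve.b₂ = ((P.b ^ P.p - P.a ^ P.p : ℤ) : ℚ) := by
  simp only [WeierstrassCurve.b₂, frey_a₁, frey_a₂]
  push_cast
  ring

lemma frey_b₂_odd : ¬ (2 : ℤ) ∣ (P.b ^ P.p - P.a ^ P.p) := by
  intro h
  have hb : (2 : ℤ) ∣ P.b ^ P.p := dvd_pow (frey_two_dvd_b P) P.hp0
  have ha : (2 : ℤ) ∣ P.a ^ P.p := by
    have := dvd_sub hb h
    simpa using this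
  exact frey_not_two_dvd_a P (Int.prime_two.dvd_of_dvd_pow ha)

lemma frey_padicValRat_a : padicValRat 2 (P.a : ℚ) = 0 := by
  rw [padicValRat.of_int]
  exact_mod_cast padicValInt.eq_zero_of_not_dvd (by exact_mod_cast frey_not_two_dvd_a P)

/-- `v₂(b) ≥ 1`. -/
lemma frey_padicValRat_b : 1 ≤ padicValRat 2 (P.b : ℚ) := by
  rw [padicValRat.of_int]
  have h : (2 : ℤ) ^ 1 ∣ P.b := by simpa using frey_two_dvd_b P
  have := (padicValInt_dvd_iff (p := 2) 1 P.b).mp (by exact_mod_cast h)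
  rcases this with h0 | h1
  · exact absurd h0 P.hb0
  · exact_mod_cast h1

lemma frey_a₄_ne_zero : P.freyCurve.a₄ ≠ 0 := by
  rw [frey_a₄]
  have ha : (P.a : ℚ) ≠ 0 := by exact_mod_cast P.ha0
  have hb : (P.b : ℚ) ≠ 0 := by exact_mod_cast P.hb0
  have := pow_ne_zero P.p ha
  have := pow_ne_zero P.p hb
  simp [*]

/-- `v₂(a₄) = p v₂(b) - 4`. -/
lemma frey_padicValRat_a₄ :
    padicValRat 2 P.freyCurve.a₄ = P.p * padicValRat 2 (P.b : ℚ) - 4 := by
  have ha : (P.a : ℚ) ≠ 0 := by exact_mod_cast P.ha0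
  have hb : (P.b : ℚ) ≠ 0 := by exact_mod_cast P.hb0
  have hap := pow_ne_zero P.p ha
  have hbp := pow_ne_zero P.p hb
  have h16 : (16 : ℚ) = 2 ^ 4 := by norm_num
  rw [frey_a₄, padicValRat.div (mul_ne_zero (neg_ne_zero.mpr hap) hbp) (by norm_num),
    padicValRat.mul (neg_ne_zero.mpr hap) hbp, padicValRat.neg, padicValRat.pow, padicValRat.pow,
    frey_padicValRat_a, h16, padicValRat.pow]
  have h2 : padicValRat 2 (2 : ℚ) = 1 := by
    have := padicValRat.self (p := 2) (by norm_num)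
    exact_mod_cast this
  rw [h2]
  push_cast
  ring

/-- `η = v₂(a₄) > 0`. -/
lemma frey_padicValRat_a₄_pos : 0 < padicValRat 2 P.freyCurve.a₄ := by
  rw [frey_padicValRat_a₄]
  have h1 := frey_padicValRat_b P
  have h5 : (5 : ℤ) ≤ P.p := by exact_mod_cast P.hp5
  nlinarith

end frey

section freyNode

variable (P : FreyPackage)

lemma padicValRat_two_two : padicValRat 2 (2 : ℚ) = 1 := by
  have := padicValRat.self (p := 2) (by norm_num)
  exact_mod_cast this

lemma frey_nodeData : NodeDataG twoAdic P.freyCurve.b₂ P.freyCurve.a₄ where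
  two_ge := Or.inr (by rw [twoAdic_w, padicValRat_two_two]; norm_num)
  c_ne := by
    rw [frey_b₂]
    intro h
    have h0 : P.b ^ P.p - P.a ^ P.p = 0 := by exact_mod_cast h
    exact frey_b₂_odd P (h0 ▸ dvd_zero 2)
  w_c := by
    rw [twoAdic_w, frey_b₂, padicValRat.of_int,
      padicValInt.eq_zero_of_not_dvd (by exact_mod_cast frey_b₂_odd P)]
    simp
  b_ne := frey_a₄_ne_zero P
  w_b := by rw [twoAdic_w]; exact_mod_cast frey_padicValRat_a₄_pos P

/-- `α` is integer valued. -/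
lemma frey_alpha_int (Q : P.freyCurve.toAffine.Point) :
    ∃ m : ℤ, alpha twoAdic P.freyCurve Q = m ∧ 0 ≤ m ∧ m ≤ padicValRat 2 P.freyCurve.a₄ := by
  have hη := frey_padicValRat_a₄_pos P
  cases Q with
  | zero => exact ⟨0, by rw [Int.cast_zero]; rfl, le_rfl, hη.le⟩
  | some x y h =>
    rw [alpha_some]
    by_cases hx : x = 0
    · subst hx
      exact ⟨padicValRat 2 P.freyCurve.a₄, by rw [alphaX_zero, twoAdic_w], hη.le, le_rfl⟩
    · refine ⟨max 0 (min (padicValRat 2 x) (padicValRat 2 P.freyCurve.a₄)), ?_,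
        le_max_left _ _, max_le hη.le (min_le_right _ _)⟩
      rw [alphaX_of_ne _ hx, twoAdic_w, twoAdic_w]
      push_cast
      rfl

lemma frey_p_coprime_eight : IsCoprime (P.p : ℤ) 8 := by
  have h2 : Nat.Coprime P.p 2 := by
    rw [Nat.coprime_primes P.pp Nat.prime_two]
    have := P.hp5
    omega
  have h8 : Nat.Coprime P.p (2 ^ 3) := Nat.Coprime.pow_right 3 h2
  have := Nat.isCoprime_iff_coprime.mpr h8
  simpa using this

/-- A rational point killed by `p` has nonsingular reduction at `2`. -/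
theorem frey_alpha_eq_zero (Q : P.freyCurve.toAffine.Point) (hQ : P.p • Q = 0) :
    alpha twoAdic P.freyCurve Q = 0 := by
  obtain ⟨k, hk⟩ := alphaG_torsion (frey_isNodeModel P) (frey_nodeData P) Q hQ
  obtain ⟨m, hm, hm0, hmη⟩ := frey_alpha_int P Q
  have hη := frey_padicValRat_a₄_pos P
  rw [hm, twoAdic_w] at hk
  have hk' : (P.p : ℤ) * m = 2 * k * padicValRat 2 P.freyCurve.a₄ := by exact_mod_cast hk
  rw [frey_padicValRat_a₄] at hk' hmη hη
  set n := padicValRat 2 (P.b : ℚ) with hn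
  -- `p ∣ 8 k`
  have hdvd : (P.p : ℤ) ∣ 8 * k := ⟨2 * k * n - m, by linear_combination hk'⟩
  obtain ⟨k', hk''⟩ := (frey_p_coprime_eight P).dvd_of_dvd_mul_left hdvd
  have hp0 : (P.p : ℤ) ≠ 0 := by exact_mod_cast P.hp0
  have hm' : m = 2 * k' * (P.p * n - 4) := by
    apply mul_left_cancel₀ hp0
    rw [hk', hk'']
    ring
  have hk0 : k' = 0 := by
    by_contra hne
    rcases lt_or_gt_of_ne hne with hlt | hgt
    · have : k' ≤ -1 := Int.le_sub_one_of_lt hlt
      nlinarith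
    · have : 1 ≤ k' := hgt
      nlinarith
  rw [hm, hm', hk0]
  simp

end freyNode

section freyEnd

variable (P : FreyPackage)

lemma frey_not_two_dvd_p : ¬ (2 : ℤ) ∣ (P.p : ℤ) := by
  intro h
  have h2 : (2 : ℕ) ∣ P.p := by exact_mod_cast h
  have := (Nat.prime_dvd_prime_iff_eq Nat.prime_two P.pp).mp h2
  have := P.hp5
  omega

lemma frey_v2_p : v2 (P.p : ℚ) = 1 := by
  have := (v2_intCast_eq_one_iff (P.p : ℤ)).mpr (frey_not_two_dvd_p P)
  simpa using this

lemma frey_v2_a₂ : v2 P.freyCurve.a₂ ≤ 1 := by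
  rw [frey_a₂_int]; exact v2_intCast_le_one _

lemma frey_v2_a₄ : v2 P.freyCurve.a₄ ≤ 1 := by
  rw [frey_a₄_int]; exact v2_intCast_le_one _

lemma frey_v2_a₄_lt : v2 P.freyCurve.a₄ < 1 :=
  (v2_lt_one_iff (frey_a₄_ne_zero P)).mpr (frey_padicValRat_a₄_pos P)

lemma frey_isIntegralAt : Fermat.Agent.H26.IsIntegralAt v2 P.freyCurve.toAffine where
  a₁ := by rw [show P.freyCurve.toAffine.a₁ = 1 from rfl, map_one]
  a₂ := frey_v2_a₂ P
  a₃ := by rw [show P.freyCurve.toAffine.a₃ = 0 from rfl, map_zero]; exact zero_le_one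
  a₄ := frey_v2_a₄ P
  a₆ := by rw [show P.freyCurve.toAffine.a₆ = 0 from rfl, map_zero]; exact zero_le_one

lemma v2_two_lt : v2 (2 : ℚ) < 1 := by
  have := (v2_intCast_lt_one_iff 2).mpr (dvd_refl 2)
  simpa using this

/-- A nonzero rational point killed by `p` has a unit `x`-coordinate and an integral
`y`-coordinate at `2`. -/
lemma frey_unit_x {R : P.freyCurve.toAffine.Point} (hR0 : R ≠ 0) (hR : P.p • R = 0) :
    ∃ (x y : ℚ) (h : P.freyCurve.toAffine.Nonsingular x y),
      R = Point.some x y h ∧ v2 x = 1 ∧ v2 y ≤ 1 := by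
  have hα := frey_alpha_eq_zero P R hR
  have hη := frey_padicValRat_a₄_pos P
  cases R with
  | zero => exact absurd rfl hR0
  | some x y h =>
    refine ⟨x, y, h, rfl, ?_⟩
    rw [alpha_some] at hα
    have hx : x ≠ 0 := by
      rintro rfl
      rw [alphaX_zero, twoAdic_w] at hα
      have : padicValRat 2 P.freyCurve.a₄ = 0 := by exact_mod_cast hα
      omega
    rw [alphaX_of_ne _ hx, twoAdic_w, twoAdic_w] at hα
    have hα' : max 0 (min (padicValRat 2 x) (padicValRat 2 P.freyCurve.a₄)) = 0 := by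
      exact_mod_cast hα
    have hle : padicValRat 2 x ≤ 0 := by
      have h1 : min (padicValRat 2 x) (padicValRat 2 P.freyCurve.a₄) ≤ 0 := by
        rw [← hα']; exact le_max_right _ _
      rcases min_le_iff.mp h1 with h2 | h2
      · exact h2
      · omega
    have hx1 : v2 x = 1 := by
      rw [v2_eq_one_iff hx]
      by_contra hne
      have hlt : padicValRat 2 x < 0 := lt_of_le_of_ne hle hne
      have hker : Fermat.Agent.H26.InKer v2 (Point.some x y h) := (one_lt_v2_iff hx).mpr hlt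
      exact hR0 (Fermat.Agent.H26.eq_zero_of_nsmul_eq_zero (frey_isIntegralAt P) hker
        (frey_v2_p P) hR)
    refine ⟨hx1, ?_⟩
    -- integrality of `y`
    by_contra hy
    rw [not_le] at hy
    have e := (Affine.equation_iff _ _).mp h.1
    rw [show P.freyCurve.toAffine.a₁ = 1 from rfl, show P.freyCurve.toAffine.a₃ = 0 from rfl,
      show P.freyCurve.toAffine.a₆ = 0 from rfl] at e
    have hy0 : (0 : WithZero (Multiplicative ℤ)) < v2 y := lt_trans zero_lt_one hy
    have h1 : v2 (1 * x * y + 0 * y) < v2 (y ^ 2) := by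
      have : (1 : ℚ) * x * y + 0 * y = x * y := by ring
      rw [this, map_mul, hx1, one_mul, map_pow, sq]
      calc v2 y = v2 y * 1 := (mul_one _).symm
        _ < v2 y * v2 y := mul_lt_mul_of_pos_left hy hy0
    have h2 : v2 (y ^ 2 + 1 * x * y + 0 * y) = v2 (y ^ 2) := by
      rw [add_assoc]
      exact Valuation.map_add_eq_of_lt_left v2 h1
    have h3 : v2 (x ^ 3 + P.freyCurve.toAffine.a₂ * x ^ 2 + P.freyCurve.toAffine.a₄ * x + 0) ≤ 1 := by
      have hxle : v2 x ≤ 1 := hx1.le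
      have t1 : v2 (x ^ 3) ≤ 1 := by rw [map_pow, hx1, one_pow]
      have t2 : v2 (P.freyCurve.toAffine.a₂ * x ^ 2) ≤ 1 := by
        rw [map_mul, map_pow, hx1, one_pow, mul_one]; exact frey_v2_a₂ P
      have t3 : v2 (P.freyCurve.toAffine.a₄ * x) ≤ 1 := by
        rw [map_mul, hx1, mul_one]; exact frey_v2_a₄ P
      rw [add_zero]
      exact (v2.map_add_le (v2.map_add_le t1 t2) t3)
    rw [← e, h2, map_pow] at h3
    have : (1 : WithZero (Multiplicative ℤ)) < v2 y ^ 2 := one_lt_pow₀ hy two_ne_zero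
    exact absurd h3 (not_le.mpr this)


lemma mem_nonunits_v2 {x : ℚ} : x ∈ (v2.valuationSubring).nonunits ↔ v2 x < 1 := by
  rw [ValuationSubring.mem_nonunits_iff]
  exact (Valuation.isEquiv_valuation_valuationSubring v2).lt_one_iff_lt_one.symm

lemma mem_v2 {x : ℚ} : x ∈ v2.valuationSubring ↔ v2 x ≤ 1 := Iff.rfl

lemma v2_sub_lt {x y : ℚ} (hx : v2 x < 1) (hy : v2 y < 1) : v2 (x - y) < 1 :=
  lt_of_le_of_lt (v2.map_sub x y) (max_lt hx hy)

lemma v2_add_lt {x y : ℚ} (hx : v2 x < 1) (hy : v2 y < 1) : v2 (x + y) < 1 :=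
  lt_of_le_of_lt (v2.map_add x y) (max_lt hx hy)

lemma v2_sub_one_lt {x : ℚ} (hx : v2 x = 1) : v2 (x - 1) < 1 := by
  rcases v2_residue x hx.le with h | h
  · rw [hx] at h; exact absurd h (lt_irrefl _)
  · exact h

lemma v2_two_mul_lt {y : ℚ} (hy : v2 y ≤ 1) : v2 (2 * y) < 1 := by
  rw [map_mul]
  calc v2 2 * v2 y ≤ v2 2 * 1 := by gcongr
    _ = v2 2 := mul_one _
    _ < 1 := v2_two_lt

/-- multiples by integers prime to `p` of a nonzero `p`-torsion point are nonzero -/
lemma nsmul_ne_zero_of_coprime {G : Type*} [AddGroup G] {Q : G} {p m : ℕ} (hQ0 : Q ≠ 0)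
    (hQ : p • Q = 0) (hm : Nat.Coprime m p) : m • Q ≠ 0 := by
  intro h
  have h1 : addOrderOf Q ∣ m := addOrderOf_dvd_of_nsmul_eq_zero h
  have h2 : addOrderOf Q ∣ p := addOrderOf_dvd_of_nsmul_eq_zero hQ
  have h3 : addOrderOf Q ∣ 1 := by
    have := Nat.dvd_gcd h1 h2
    rwa [hm.gcd_eq_one] at this
  have h4 : addOrderOf Q = 1 := Nat.dvd_one.mp h3
  exact hQ0 (AddMonoid.addOrderOf_eq_one_iff.mp h4)

/-- **The Frey curve has no rational point of order `p`.** -/
theorem frey_rational_torsion_eq_zero (Q : P.freyCurve.toAffine.Point) (hQ : P.p • Q = 0) :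
    Q = 0 := by
  by_contra hQ0
  have hp5 := P.hp5
  have hc2 : Nat.Coprime 2 P.p := by
    rw [Nat.coprime_primes Nat.prime_two P.pp]; omega
  have hc3 : Nat.Coprime 3 P.p := by
    rw [Nat.coprime_primes Nat.prime_three P.pp]; omega
  have h2Q : 2 • Q ≠ 0 := nsmul_ne_zero_of_coprime hQ0 hQ hc2
  have h3Q : 3 • Q ≠ 0 := nsmul_ne_zero_of_coprime hQ0 hQ hc3
  have hp2 : P.p • (2 • Q) = 0 := by rw [smul_comm, hQ, nsmul_zero]
  have hp3 : P.p • (3 • Q) = 0 := by rw [smul_comm, hQ, nsmul_zero]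
  obtain ⟨x, y, h, rfl, hx, hy⟩ := frey_unit_x P hQ0 hQ
  obtain ⟨x', y', h', e2, hx', hy'⟩ := frey_unit_x P h2Q hp2
  obtain ⟨x'', y'', h'', e3, hx'', -⟩ := frey_unit_x P h3Q hp3
  -- integrality data
  have ha₁ : P.freyCurve.a₁ ∈ v2.valuationSubring := by
    rw [mem_v2, frey_a₁, map_one]
  have ha₂ : P.freyCurve.a₂ ∈ v2.valuationSubring := frey_v2_a₂ P
  have ha₃ : P.freyCurve.a₃ ∈ v2.valuationSubring := by
    rw [mem_v2, frey_a₃, map_zero]; exact zero_le_one
  have ha₄ : P.freyCurve.a₄ ∈ v2.valuationSubring := frey_v2_a₄ P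
  have hxx : x' - x ∈ (v2.valuationSubring).nonunits := by
    rw [mem_nonunits_v2]
    have : x' - x = (x' - 1) - (x - 1) := by ring
    rw [this]
    exact v2_sub_lt (v2_sub_one_lt hx') (v2_sub_one_lt hx)
  have hyy : v2 (y' - y) ≤ 1 := le_trans (v2.map_sub y' y) (max_le hy' hy)
  rcases v2_residue (y' - y) hyy with hc | hc
  · -- `2Q` and `Q` have the same reduction
    have hns : P.freyCurve.a₁ * y - (3 * x ^ 2 + 2 * P.freyCurve.a₂ * x + P.freyCurve.a₄)
          ∉ (v2.valuationSubring).nonunits ∨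
        2 * y + P.freyCurve.a₁ * x + P.freyCurve.a₃ ∉ (v2.valuationSubring).nonunits := by
      right
      rw [mem_nonunits_v2, frey_a₁, frey_a₃, one_mul, add_zero, not_lt]
      have : v2 (2 * y + x) = v2 x := by
        rw [add_comm]
        exact Valuation.map_add_eq_of_lt_left v2 (by rw [hx]; exact v2_two_mul_lt hy)
      rw [this, hx]
    have key := Fermat.Agent.H8.sub_eq_zero_or_X_not_mem_of_reduction_eq v2.valuationSubring
      P.freyCurve ha₁ ha₂ ha₃ ha₄ h' h (mem_v2.mpr hx'.le) (mem_v2.mpr hx.le) (mem_v2.mpr hy)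
      hxx (mem_nonunits_v2.mpr hc) hns
    have hsub : Point.some x' y' h' - Point.some x y h = Point.some x y h := by
      rw [← e2, two_nsmul, add_sub_cancel_right]
    rw [hsub] at key
    rcases key with k0 | ⟨x₃, y₃, h₃, e, hx₃⟩
    · exact hQ0 k0
    · have : x = x₃ := by
        have := congrArg (xc P.freyCurve) e
        simpa using this
      rw [← this] at hx₃
      exact hx₃ (mem_v2.mpr hx.le)
  · -- `2Q` and `-Q` have the same reduction
    have hneg : -Point.some x y h = Point.some x (P.freyCurve.toAffine.negY x y)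
        ((P.freyCurve.toAffine.nonsingular_neg ..).mpr h) := rfl
    have hnegY : P.freyCurve.toAffine.negY x y = -y - x := by
      simp only [negY]
      rw [show P.freyCurve.toAffine.a₁ = 1 from rfl, show P.freyCurve.toAffine.a₃ = 0 from rfl]
      ring
    have hyn : v2 (P.freyCurve.toAffine.negY x y) ≤ 1 := by
      rw [hnegY]
      exact le_trans (v2.map_sub _ _) (max_le (by rw [Valuation.map_neg]; exact hy) hx.le)
    have hns : P.freyCurve.a₁ * (P.freyCurve.toAffine.negY x y)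
          - (3 * x ^ 2 + 2 * P.freyCurve.a₂ * x + P.freyCurve.a₄)
          ∉ (v2.valuationSubring).nonunits ∨
        2 * (P.freyCurve.toAffine.negY x y) + P.freyCurve.a₁ * x + P.freyCurve.a₃
          ∉ (v2.valuationSubring).nonunits := by
      right
      rw [mem_nonunits_v2, frey_a₁, frey_a₃, one_mul, add_zero, not_lt]
      have : v2 (2 * (P.freyCurve.toAffine.negY x y) + x) = v2 x := by
        rw [add_comm]
        exact Valuation.map_add_eq_of_lt_left v2 (by rw [hx]; exact v2_two_mul_lt hyn)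
      rw [this, hx]
    have hyc : y' - P.freyCurve.toAffine.negY x y ∈ (v2.valuationSubring).nonunits := by
      rw [mem_nonunits_v2, hnegY]
      have : y' - (-y - x) = (y' - y - 1) + (2 * y + ((x - 1) + 2)) := by ring
      rw [this]
      exact v2_add_lt hc (v2_add_lt (v2_two_mul_lt hy) (v2_add_lt (v2_sub_one_lt hx) v2_two_lt))
    have key := Fermat.Agent.H8.sub_eq_zero_or_X_not_mem_of_reduction_eq v2.valuationSubring
      P.freyCurve ha₁ ha₂ ha₃ ha₄ h' ((P.freyCurve.toAffine.nonsingular_neg ..).mpr h)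
      (mem_v2.mpr hx'.le) (mem_v2.mpr hx.le) (mem_v2.mpr hyn) hxx hyc hns
    have hsub : Point.some x' y' h' - Point.some x (P.freyCurve.toAffine.negY x y)
        ((P.freyCurve.toAffine.nonsingular_neg ..).mpr h) = Point.some x'' y'' h'' := by
      rw [← hneg, ← e2, ← e3, sub_neg_eq_add, ← succ_nsmul]
    rw [hsub] at key
    rcases key with k0 | ⟨x₃, y₃, h₃, e, hx₃⟩
    · exact Point.some_ne_zero _ k0
    · have : x'' = x₃ := by
        have := congrArg (xc P.freyCurve) e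
        simpa using this
      rw [← this] at hx₃
      exact hx₃ (mem_v2.mpr hx''.le)

end freyEnd

end Fermat.Agent.H55
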